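import Fermat.Agent.S24

/-!
# Characteristic zero numerics of the modular function fields `modularFunctionFieldFullC L N`
-/

set_option autoImplicit false

noncomputable section

open AlgebraicCurve ModularCurve IntermediateField

namespace Fermat.Agent.Cusps

open Fermat.Agent.X0Places Fermat.Agent.FunField

section Numerics

theorem dedekindPsi_four : dedekindPsi 4 = 6 := by
  rw [dedekindPsi]; decide +kernel

theorem dedekindPsi_nine : dedekindPsi 9 = 12 := by
  rw [dedekindPsi]; decide +kernel

theorem cuspCount_four : cuspCount 4 = 3 := by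
  rw [cuspCount]; decide +kernel

theorem cuspCount_nine : cuspCount 9 = 4 := by
  rw [cuspCount]; decide +kernel

theorem nuTwo_four : nuTwo 4 = 0 := by
  rw [nuTwo, Nat.card_eq_fintype_card]; decide +kernel

theorem nuTwo_nine : nuTwo 9 = 0 := by
  rw [nuTwo, Nat.card_eq_fintype_card]; decide +kernel

theorem nuThree_four : nuThree 4 = 0 := by
  rw [nuThree, Nat.card_eq_fintype_card]; decide +kernel

theorem nuThree_nine : nuThree 9 = 0 := by
  rw [nuThree, Nat.card_eq_fintype_card]; decide +kernel

theorem genusFormula_four : genusFormula 4 = 0 := by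
  rw [genusFormula, dedekindPsi_four, nuTwo_four, nuThree_four, cuspCount_four]; norm_num

theorem genusFormula_nine : genusFormula 9 = 0 := by
  rw [genusFormula, dedekindPsi_nine, nuTwo_nine, nuThree_nine, cuspCount_nine]; norm_num

end Numerics

variable (L : Type*) [Field L] [Algebra ℚ L] [IsAlgClosed L] (ι : L →+* ℂ) (N : ℕ) [NeZero N]

include ι

/-- transport of the numerics along an equality of intermediate fields -/
theorem numerics_aux (B : IntermediateField L (LaurentSeries L)) (hB : FF L N = B)
    (jB : B) (hj : (jB : LaurentSeries L) = jqModC L) :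
    (genusFF L B : ℚ) = genusFormula N ∧
      Nat.card {v : Place L B // v.ord jB < 0} = cuspCount N ∧
      Nat.card {v : Place L B // 0 < v.ord jB⁻¹} = cuspCount N := by
  subst hB
  have hjB : jB = jF L N := Subtype.ext (hj.trans (coe_jF L N).symm)
  subst hjB
  have h1 := (card_places_inf N ι (finrank_jF L N)).1
  refine ⟨Fermat.Agent.S24.genusFF_eq L ι N, ?_, h1⟩
  rw [← h1]
  have : ∀ v : Place L (FF L N), v.ord (jF L N) < 0 ↔ 0 < v.ord (jF L N)⁻¹ := by
    intro v
    rw [v.ord_inv]
    omega
  simp only [this]

/-- genus of `X₀(N)`, for the field `modularFunctionFieldFullC L N` -/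
theorem genusFF_full :
    (genusFF L (modularFunctionFieldFullC L N) : ℚ) = genusFormula N := by
  have hB := Fermat.Agent.HeckeRed.laurentBaseChange_full L N
  have hj : jqModC L ∈ modularFunctionFieldFullC L N := by
    rw [← hB, ← coe_jF L N]
    exact (jF L N).2
  exact (numerics_aux L ι N _ hB ⟨jqModC L, hj⟩ rfl).1

theorem card_cusps (hj : jqModC L ∈ modularFunctionFieldFullC L N) :
    Nat.card {v : Place L (modularFunctionFieldFullC L N) //
      v.ord (⟨jqModC L, hj⟩ : modularFunctionFieldFullC L N) < 0} = cuspCount N :=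
  (numerics_aux L ι N _ (Fermat.Agent.HeckeRed.laurentBaseChange_full L N) ⟨jqModC L, hj⟩ rfl).2.1

/-- the genus inequality used in the comparison with positive characteristic -/
theorem genus_ineq : 6 * (2 * (genusFF L (modularFunctionFieldFullC L N) : ℤ) - 2) ≤
    (dedekindPsi N : ℤ) - 6 * cuspCount N := by
  have h1 := genusFF_full L ι N
  rw [genusFormula] at h1
  have h2 : (6 * (2 * (genusFF L (modularFunctionFieldFullC L N) : ℚ) - 2)) ≤
      (dedekindPsi N : ℚ) - 6 * cuspCount N := by
    rw [h1]
    have h3 : (0 : ℚ) ≤ nuTwo N := Nat.cast_nonneg _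
    have h4 : (0 : ℚ) ≤ nuThree N := Nat.cast_nonneg _
    linarith
  exact_mod_cast h2

theorem genus_ineq' (hj : jqModC L ∈ modularFunctionFieldFullC L N) :
    6 * (2 * (genusFF L (modularFunctionFieldFullC L N) : ℤ) - 2) ≤
      (dedekindPsi N : ℤ) - 6 * Nat.card {v : Place L (modularFunctionFieldFullC L N) //
        v.ord (⟨jqModC L, hj⟩ : modularFunctionFieldFullC L N) < 0} := by
  rw [card_cusps L ι N hj]
  exact genus_ineq L ι N

theorem genusFF_four : genusFF L (modularFunctionFieldFullC L 4) = 0 := by
  have h1 := genusFF_full L ι 4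
  rw [genusFormula_four] at h1
  exact_mod_cast h1

theorem genusFF_nine : genusFF L (modularFunctionFieldFullC L 9) = 0 := by
  have h1 := genusFF_full L ι 9
  rw [genusFormula_nine] at h1
  exact_mod_cast h1

end Fermat.Agent.Cusps
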