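import Mathlib
import Fermat.Agent.ModPoly.Twist
import Fermat.Agent.FunField.DegreeFormula
import Fermat.Prelude.Def_ModularCurve_X0ModL

/-!
# The order valuation on Laurent series over a field; degrees
-/

set_option autoImplicit false

noncomputable section

open HahnSeries WithZero IntermediateField ModularCurve

namespace Fermat.Agent.Cusps

section Val

variable (K : Type*) [Field K]

open Classical in
/-- The order valuation on `K((q))`, with values in `ℤᵐ⁰`. -/
def lval : Valuation (LaurentSeries K) ℤᵐ⁰ where
  toFun x := if x = 0 then 0 else exp (-(x.order))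
  map_zero' := by simp
  map_one' := by simp
  map_mul' x y := by
    by_cases hx : x = 0
    · simp [hx]
    by_cases hy : y = 0
    · simp [hy]
    rw [if_neg (mul_ne_zero hx hy), if_neg hx, if_neg hy, HahnSeries.order_mul hx hy, ← exp_add]
    congr 1
    ring
  map_add_le_max' x y := by
    by_cases hx : x = 0
    · simp [hx]
    by_cases hy : y = 0
    · simp [hy]
    by_cases hxy : x + y = 0
    · rw [if_pos hxy]; exact zero_le
    rw [if_neg hxy, if_neg hx, if_neg hy]
    have h := HahnSeries.min_order_le_order_add hxy
    rcases le_total x.order y.order with h1 | h1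
    · rw [min_eq_left h1] at h
      exact le_max_of_le_left (exp_le_exp.2 (by omega))
    · rw [min_eq_right h1] at h
      exact le_max_of_le_right (exp_le_exp.2 (by omega))

variable {K}

theorem lval_apply {x : LaurentSeries K} (hx : x ≠ 0) : lval K x = exp (-(x.order)) := by
  classical
  show (if x = 0 then 0 else exp (-(x.order))) = _
  rw [if_neg hx]

theorem lval_le_iff {x : LaurentSeries K} {n : ℤ} :
    lval K x ≤ exp (-n) ↔ ∀ k < n, x.coeff k = 0 := by
  rcases eq_or_ne x 0 with rfl | hx
  · simp
  rw [lval_apply hx, exp_le_exp]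
  constructor
  · intro h k hk
    exact HahnSeries.coeff_eq_zero_of_lt_order (by omega)
  · intro h
    by_contra hlt
    push Not at hlt
    have := h x.order (by omega)
    exact HahnSeries.coeff_order_eq_zero.not.2 hx this

theorem lval_le_one_iff {x : LaurentSeries K} :
    lval K x ≤ 1 ↔ ∀ k < 0, x.coeff k = 0 := by
  have := lval_le_iff (x := x) (n := 0)
  rwa [neg_zero, exp_zero] at this

theorem lval_eq_of {x : LaurentSeries K} {n : ℤ} (h : ∀ k < n, x.coeff k = 0)
    (h0 : x.coeff n ≠ 0) : lval K x = exp (-n) := by
  apply le_antisymm (lval_le_iff.2 h)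
  have hx : x ≠ 0 := by rintro rfl; exact h0 rfl
  rw [lval_apply hx, exp_le_exp]
  have := HahnSeries.order_le_of_coeff_ne_zero h0
  omega

theorem lval_algebraMap_le (c : K) : lval K (algebraMap K (LaurentSeries K) c) ≤ 1 := by
  rw [lval_le_one_iff]
  intro k hk
  rw [algebraMap_laurentSeries_eq_single, HahnSeries.coeff_single_of_ne hk.ne]

end Val

section Degree

variable {K Ω : Type*} [Field K] [Field Ω] [Algebra K Ω]

theorem comap_adjoin_simple (F : IntermediateField K Ω) (j : F) :
    (K⟮(j : Ω)⟯).comap F.val = K⟮j⟯ := by
  have h : (K⟮j⟯).map F.val = K⟮(j : Ω)⟯ := by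
    rw [adjoin_map, Set.image_singleton]; rfl
  ext x
  rw [← h]
  constructor
  · rintro ⟨y, hy, hyx⟩
    have : y = x := F.val.injective hyx
    rwa [← this]
  · intro hx
    exact ⟨x, hx, rfl⟩

/-- degree over `K(j)` as relative degree -/
theorem finrank_adjoin_eq_relfinrank (F : IntermediateField K Ω) (j : F) :
    Module.finrank K⟮j⟯ F = relfinrank K⟮(j : Ω)⟯ F := by
  rw [← comap_adjoin_simple, IntermediateField.finrank_comap, IntermediateField.fieldRange_val]

end Degree

end Fermat.Agent.Cusps
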