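import Fermat.Agent.Cusps.GenusQb
import Fermat.Agent.HeckeRed.Package
import Fermat.Agent.TorsInj.S18Glue

/-!
# Equality of genera in the form used by the specialization package
-/

set_option autoImplicit false

noncomputable section

open ModularCurve AlgebraicCurve

namespace Fermat.Agent.Cusps

open Fermat.Agent.Deuring Fermat.Agent.FunField Fermat.Agent.Igusa

theorem rrLarge_bar_gen {L : Type*} [Field L] [IsAlgClosed L] (N : ℕ) [NeZero N]
    (F : IntermediateField L (LaurentSeries L)) (hF : F = modularFunctionFieldFullC L N) :
    RRLarge L F (genusFF L (modularFunctionFieldFullC L N)) := by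
  subst hF
  exact TorsInj.rrLarge_genusFF

/-- **Equality of genera** (`GenusEq`) at every level. -/
theorem genusEq (N : ℕ) [NeZero N] : HeckeRed.GenusEq N := by
  intro A _ hN
  refine ⟨genusFF (AlgebraicClosure ℚ) (modularFunctionFieldFullC (AlgebraicClosure ℚ) N),
    rrLarge_bar_gen N _ (modularFunctionFieldBar_eq N), ?_⟩
  rw [← genusFF_residue A N hN]
  exact rrLarge_bar_gen N _ rfl

end Fermat.Agent.Cusps
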