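import Fermat.Agent.Cusps.OrdVal
import Fermat.Agent.ModDeg.DegreeClosed
import Fermat.Agent.X0Places.PlaceOfVal
import Fermat.Agent.HeckeRed.FF

/-!
# The modular function field of level `p²` has at least `p + 1` cusps, in any characteristic `≠ p`
-/

set_option autoImplicit false

noncomputable section

open HahnSeries WithZero IntermediateField ModularCurve Polynomial AlgebraicCurve
open Fermat.Agent.ModPoly Fermat.Agent.ModDeg Fermat.Agent.FunField
  Fermat.Agent.FunField.PlaceLemmas

namespace Fermat.Agent.Cusps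

section Emb

variable {K : Type*} [Field K] [IsAlgClosed K] {p : ℕ} [hp : Fact p.Prime]

local notation "jj" => jqModC K
local notation "jp" => qExpand K p (jqModC K)
local notation "jpp" => qExpand K p (qExpand K p (jqModC K))

theorem jp_mem : jp ∈ modularFunctionFieldFullC K p := jqModCd_mem_full K p dvd_rfl

theorem jpp_eq_vj : jpp = vj K (p * p) := by rw [vj_mul]

instance neZero_pp : NeZero (p * p) := ⟨mul_ne_zero hp.out.ne_zero hp.out.ne_zero⟩

theorem jpp_mem : jpp ∈ modularFunctionFieldFullC K (p * p) := by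
  rw [jpp_eq_vj]
  exact vj_mem_full K (neZero_pp).ne dvd_rfl

theorem full_pp_eq_sup : modularFunctionFieldFullC K (p * p) =
    modularFunctionFieldFullC K p ⊔ IntermediateField.adjoin K {jpp} := by
  apply le_antisymm
  · rw [full_le_iff K neZero_pp.ne]
    intro d hd
    rw [← sq, Nat.dvd_prime_pow hp.out] at hd
    obtain ⟨k, hk, rfl⟩ := hd
    interval_cases k
    · rw [pow_zero]
      exact (le_sup_left : modularFunctionFieldFullC K p ≤ _) (vj_mem_full K one_ne_zero (one_dvd _))
    · rw [pow_one]
      exact (le_sup_left : modularFunctionFieldFullC K p ≤ _)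
        (vj_mem_full K hp.out.ne_zero dvd_rfl)
    · rw [sq, ← jpp_eq_vj]
      exact (le_sup_right : IntermediateField.adjoin K {jpp} ≤ _)
        (mem_adjoin_simple_self K _)
  · rw [sup_le_iff]
    refine ⟨full_degeneracyC_le K (Dvd.intro p rfl), ?_⟩
    rw [IntermediateField.adjoin_le_iff, Set.singleton_subset_iff]
    exact jpp_mem

variable {v : Kˣ} (hv : IsPrimitiveRoot v p)

theorem coeff_jj_of_lt {k : ℤ} (hk : k < -1) : (jj).coeff k = 0 := by
  apply HahnSeries.coeff_eq_zero_of_lt_order
  rw [order_jqModC]; exact hk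

theorem coeff_jj_neg_one : (jj).coeff (-1) = 1 := by
  have := coeff_jqModC_pow_self K 1
  rw [pow_one] at this
  exact_mod_cast this

theorem coeff_jT_some_neg_one (b : Fin p) :
    (jT K p v (some b)).coeff (-1) = (((v ^ (b : ℕ))⁻¹ : Kˣ) : K) := by
  show (twist (v ^ (b : ℕ)) jj).coeff (-1) = _
  rw [twist_coeff, coeff_jj_neg_one, mul_one, zpow_neg_one]

theorem coeff_jT_some_of_lt (b : Fin p) {k : ℤ} (hk : k < -1) :
    (jT K p v (some b)).coeff k = 0 := by
  show (twist (v ^ (b : ℕ)) jj).coeff k = _
  rw [twist_coeff, coeff_jj_of_lt hk, mul_zero]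

theorem coeff_jpp_ne : (jpp).coeff (-(p * p : ℕ)) ≠ 0 := by
  have h : (jpp).order = -(p * p : ℕ) := by
    rw [order_qExpand, order_qExpand, order_jqModC]
    push_cast; ring
  rw [← h]
  apply HahnSeries.coeff_order_eq_zero.not.2
  intro h0
  have h1 : jp = 0 := qExpand_injective p (by rw [h0, map_zero])
  have h2 : jj = 0 := qExpand_injective p (by rw [h1, map_zero])
  have h3 := order_jqModC (K := K)
  rw [h2] at h3
  simp at h3

include hv in
/-- the value of `jT i - c_b j` at the corresponding place separates the embeddings -/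
theorem eq_of_lval_le (i : Option (Fin p)) (b : Fin p)
    (h : lval K (jT K p v i - algebraMap K (LaurentSeries K) (((v ^ (b : ℕ))⁻¹ : Kˣ) : K) * jj) ≤ 1) :
    i = some b := by
  rw [lval_le_one_iff] at h
  have hC : ∀ (c : K) (k : ℤ), (algebraMap K (LaurentSeries K) c * jj).coeff k =
      c * (jj).coeff k := by
    intro c k
    rw [algebraMap_laurentSeries_eq_single, ← HahnSeries.C_apply, HahnSeries.C_mul_eq_smul]
    rfl
  rcases i with _ | c
  · exfalso
    have h1 := h (-(p * p : ℕ)) (by
      have := Nat.mul_pos hp.out.pos hp.out.pos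
      omega)
    rw [HahnSeries.coeff_sub, hC, coeff_jj_of_lt, mul_zero, sub_zero] at h1
    · exact coeff_jpp_ne (p := p) (K := K) h1
    · have h2 := hp.out.two_le
      have : 4 ≤ p * p := by nlinarith
      omega
  · have h1 := h (-1) (by norm_num)
    rw [HahnSeries.coeff_sub, hC, coeff_jj_neg_one, mul_one, coeff_jT_some_neg_one, sub_eq_zero,
      Units.val_inj, inv_inj] at h1
    have h2 := hv.pow_inj c.2 b.2 h1
    rw [Fin.ext h2]

theorem lval_jT_some_sub (b : Fin p) :
    lval K (jT K p v (some b) -
      algebraMap K (LaurentSeries K) (((v ^ (b : ℕ))⁻¹ : Kˣ) : K) * jj) ≤ 1 := by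
  rw [lval_le_one_iff]
  intro k hk
  have hC : ∀ (c : K) (k : ℤ), (algebraMap K (LaurentSeries K) c * jj).coeff k =
      c * (jj).coeff k := by
    intro c k
    rw [algebraMap_laurentSeries_eq_single, ← HahnSeries.C_apply, HahnSeries.C_mul_eq_smul]
    rfl
  rw [HahnSeries.coeff_sub, hC]
  rcases (show k < -1 ∨ k = -1 by omega) with h | rfl
  · rw [coeff_jT_some_of_lt _ h, coeff_jj_of_lt h, mul_zero, sub_zero]
  · rw [coeff_jT_some_neg_one, coeff_jj_neg_one, mul_one, sub_self]

theorem relfinrank_jj_p (hpK : (p : K) ≠ 0) :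
    relfinrank K⟮jj⟯ (modularFunctionFieldFullC K p) = p + 1 := by
  have h1 := relfinrank_step_of_not_dvd (K := K) (N := 1) (p := p) (by rwa [one_mul])
    (by simpa using hp.out.one_lt.ne')
  rw [one_mul] at h1
  rw [h1, relfinrank_full_of_isAlgClosed 1 (by simp), dedekindPsi_one, mul_one]

theorem relfinrank_jj_pp (hpK : (p : K) ≠ 0) :
    relfinrank K⟮jj⟯ (modularFunctionFieldFullC K (p * p)) = p * (p + 1) := by
  rw [relfinrank_step_of_dvd hpK dvd_rfl, relfinrank_jj_p hpK]

include hv in
theorem isIntegral_jpp : IsIntegral (modularFunctionFieldFullC K p) jpp :=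
  isIntegral_of_eval_phi _ p (jp_mem (K := K)) (eval_phi_of_hom hv (qExpand K p))

include hv in
theorem natDegree_minpoly_jpp (hpK : (p : K) ≠ 0) :
    (minpoly (modularFunctionFieldFullC K p) jpp).natDegree = p := by
  rw [← relfinrank_adjoin_insert _ (isIntegral_jpp hv), ← full_pp_eq_sup]
  have h1 := IntermediateField.relfinrank_mul_relfinrank (adjoin_jq_le_full (K := K) p)
    (full_degeneracyC_le K (N := p) (M := p * p) (Dvd.intro p rfl))
  rw [relfinrank_jj_pp hpK, relfinrank_jj_p hpK, mul_comm] at h1
  exact Nat.eq_of_mul_eq_mul_right (Nat.succ_pos p) h1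

include hv in
/-- the roots of the minimal polynomial of `j(q^{p²})` over the field of level `p` -/
theorem aeval_minpoly_jpp (hpK : (p : K) ≠ 0) (i : Option (Fin p))
    (hi : i ≠ some ⟨0, hp.out.pos⟩) :
    aeval (jT K p v i) (minpoly (modularFunctionFieldFullC K p) jpp) = 0 := by
  set E := modularFunctionFieldFullC K p with hE
  set f : E[X] := phi p (⟨jp, jp_mem⟩ : E) with hf
  have hjE : jj ∈ E := jqModC_mem_full K p
  -- `j` is a root of `f`
  have hroot : f.IsRoot (⟨jj, hjE⟩ : E) := by
    apply (algebraMap E (LaurentSeries K)).injective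
    rw [map_zero, ← Polynomial.eval₂_hom, ← Polynomial.eval_map, hf, map_phi_intermediate]
    exact eval_phi_qExpand_jq hv
  obtain ⟨g, hg⟩ := Polynomial.dvd_iff_isRoot.mpr hroot
  have hfm : f.Monic := phi_monic p _
  have hgm : g.Monic := (Polynomial.monic_X_sub_C _).of_mul_monic_left (hg ▸ hfm)
  have hgdeg : g.natDegree = p := by
    have h1 := phi_natDegree p (⟨jp, jp_mem⟩ : E)
    rw [← hf, hg, (Polynomial.monic_X_sub_C _).natDegree_mul hgm,
      Polynomial.natDegree_X_sub_C] at h1
    omega
  have hint := isIntegral_jpp (K := K) hv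
  have hdvd : minpoly E jpp ∣ f :=
    minpoly_dvd_phi E p (jp_mem (K := K)) (eval_phi_of_hom hv (qExpand K p))
  have hdeg := natDegree_minpoly_jpp hv hpK
  have hmg : minpoly E jpp ∣ g := by
    rw [hg] at hdvd
    rcases (minpoly.prime hint).dvd_or_dvd hdvd with h | h
    · exfalso
      have := Polynomial.natDegree_le_of_dvd h (Polynomial.X_sub_C_ne_zero _)
      rw [hdeg, Polynomial.natDegree_X_sub_C] at this
      have := hp.out.two_le
      omega
    · exact h
  have hmeq : g = minpoly E jpp :=
    Polynomial.eq_of_monic_of_dvd_of_natDegree_le (minpoly.monic hint) hgm hmg (by rw [hgdeg, hdeg])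
      |>.symm ▸ rfl
  rw [← hmeq]
  have h2 : aeval (jT K p v i) f = 0 := by
    rw [hf, aeval_phi_intermediate, phi_qExpand hv, Polynomial.eval_prod]
    exact Finset.prod_eq_zero (Finset.mem_univ i) (by simp)
  rw [hg, map_mul, mul_eq_zero] at h2
  rcases h2 with h2 | h2
  · exfalso
    rw [map_sub, aeval_X, aeval_C, sub_eq_zero] at h2
    have h3 : jT K p v i = jj := h2
    apply hi
    apply eq_of_lval_le hv
    rw [h3]
    simp
  · exact h2

end Emb

section Hom

variable {K : Type*} [Field K] [IsAlgClosed K] {p : ℕ} [hp : Fact p.Prime]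
variable {v : Kˣ} (hv : IsPrimitiveRoot v p)

local notation "jpp" => qExpand K p (qExpand K p (jqModC K))

theorem full_pp_le_adjoin {x : LaurentSeries K} (hx : x ∈ modularFunctionFieldFullC K (p * p)) :
    x ∈ IntermediateField.adjoin (modularFunctionFieldFullC K p) {jpp} := by
  rw [full_pp_eq_sup] at hx
  have h : modularFunctionFieldFullC K p ⊔ IntermediateField.adjoin K {jpp} ≤
      (IntermediateField.adjoin (modularFunctionFieldFullC K p) {jpp}).restrictScalars K := by
    rw [sup_le_iff, IntermediateField.restrictScalars_adjoin]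
    constructor
    · intro y hy
      exact IntermediateField.subset_adjoin _ _ (Or.inl hy)
    · exact IntermediateField.adjoin.mono _ _ _ (by simp)
  exact h hx

include hv in
/-- The embeddings of the level `p²` field over the level `p` field. -/
theorem exists_emb (hpK : (p : K) ≠ 0) (i : Option (Fin p)) (hi : i ≠ some ⟨0, hp.out.pos⟩) :
    ∃ τ : modularFunctionFieldFullC K (p * p) →+* LaurentSeries K,
      (∀ x : modularFunctionFieldFullC K (p * p), (x : LaurentSeries K) ∈
        modularFunctionFieldFullC K p → τ x = x) ∧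
      τ ⟨jpp, jpp_mem⟩ = jT K p v i := by
  have hint := isIntegral_jpp (K := K) hv
  let pb := IntermediateField.adjoin.powerBasis hint
  have hroot : aeval (jT K p v i) (minpoly (modularFunctionFieldFullC K p) pb.gen) = 0 := by
    have h1 : minpoly (modularFunctionFieldFullC K p) pb.gen =
        minpoly (modularFunctionFieldFullC K p) jpp := by
      rw [IntermediateField.adjoin.powerBasis_gen]
      exact IntermediateField.minpoly_gen _ _
    rw [h1]
    exact aeval_minpoly_jpp hv hpK i hi
  let φ := pb.lift (jT K p v i) hroot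
  let ι : modularFunctionFieldFullC K (p * p) →+*
      IntermediateField.adjoin (modularFunctionFieldFullC K p) {jpp} :=
    { toFun := fun x => ⟨x, full_pp_le_adjoin x.2⟩
      map_one' := rfl
      map_mul' := fun _ _ => rfl
      map_zero' := rfl
      map_add' := fun _ _ => rfl }
  refine ⟨(φ : _ →+* LaurentSeries K).comp ι, fun x hx => ?_, ?_⟩
  · show φ (ι x) = x
    have h1 : ι x = algebraMap (modularFunctionFieldFullC K p) _ ⟨x, hx⟩ := rfl
    rw [h1, φ.commutes]
    rfl
  · show φ (ι ⟨jpp, jpp_mem⟩) = _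
    have h1 : ι ⟨jpp, jpp_mem⟩ = pb.gen := by
      rw [IntermediateField.adjoin.powerBasis_gen]
      rfl
    rw [h1]
    exact pb.lift_gen _ _

end Hom

section Places

variable {K : Type*} [Field K] [IsAlgClosed K] {p : ℕ} [hp : Fact p.Prime]

/-- the place attached to an embedding which is the identity on `K(j)` -/
theorem exists_place_of_emb {N : ℕ} [NeZero N]
    (τ : modularFunctionFieldFullC K N →+* LaurentSeries K)
    (hK : ∀ c : K, τ (algebraMap K _ c) = algebraMap K (LaurentSeries K) c)
    (hj : τ (HeckeRed.jF K N) = jqModC K) :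
    ∃ P : Place K (modularFunctionFieldFullC K N),
      P.ord (HeckeRed.jF K N) = -1 ∧
      ∀ x, x ∈ P.toValuationSubring ↔ lval K (τ x) ≤ 1 := by
  have hjv : lval K (τ (HeckeRed.jF K N)) = exp (1 : ℤ) := by
    rw [hj, lval_apply, order_jqModC, neg_neg]
    intro h0
    have h3 := order_jqModC (K := K)
    rw [h0] at h3
    simp at h3
  have hL : ∀ c : K, ((lval K).comap τ) (algebraMap K _ c) ≤ 1 := by
    intro c
    rw [Valuation.comap_apply, hK]
    exact lval_algebraMap_le c
  have hne : ∃ x, 1 < ((lval K).comap τ) x := by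
    refine ⟨HeckeRed.jF K N, ?_⟩
    rw [Valuation.comap_apply, hjv, ← exp_zero, exp_lt_exp]
    norm_num
  refine ⟨X0Places.placeOfVal ((lval K).comap τ) hL hne, ?_, fun x => Iff.rfl⟩
  obtain ⟨e, he, h⟩ := X0Places.exists_ramification ((lval K).comap τ) hL hne
  have hj0 : HeckeRed.jF K N ≠ 0 := by
    intro h0
    have h3 := order_jqModC (K := K)
    rw [← hj, h0] at h3
    simp at h3
  have h1 := h _ hj0
  rw [Valuation.comap_apply, hjv, exp_inj] at h1
  have h2 : (e : ℤ) ∣ 1 := ⟨-(X0Places.placeOfVal ((lval K).comap τ) hL hne).ord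
    (HeckeRed.jF K N), by rw [h1]; ring⟩
  have h3 : (e : ℤ) = 1 := Int.eq_one_of_dvd_one (by positivity) h2
  rw [h3] at h1
  linarith

/-- **At least `p + 1` cusps at level `p²`.** -/
theorem card_cusps_pp_ge (hpK : (p : K) ≠ 0) :
    p + 1 ≤ Nat.card {P : Place K (modularFunctionFieldFullC K (p * p)) //
      P.ord (HeckeRed.jF K (p * p)) < 0} := by
  classical
  obtain ⟨v, hv⟩ := exists_primitiveRoot_unit (K := K) hp.out hpK
  let X := {i : Option (Fin p) // i ≠ some ⟨0, hp.out.pos⟩}
  have hcardX : Fintype.card X = p := by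
    rw [Fintype.card_subtype_compl, Fintype.card_option, Fintype.card_fin,
      Fintype.card_subtype_eq]
    rfl
  have hemb := fun i : X => exists_emb hv hpK i.1 i.2
  choose τ hτ1 hτ2 using hemb
  have hτK : ∀ (i : X) (c : K), τ i (algebraMap K _ c) = algebraMap K (LaurentSeries K) c :=
    fun i c => hτ1 i _ ((modularFunctionFieldFullC K p).algebraMap_mem c)
  have hτj : ∀ i : X, τ i (HeckeRed.jF K (p * p)) = jqModC K :=
    fun i => hτ1 i _ (jqModC_mem_full K p)
  have hpl := fun i : X => exists_place_of_emb (τ i) (hτK i) (hτj i)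
  choose P hP1 hP2 using hpl
  have hinj : Function.Injective P := by
    intro i i' hii
    by_contra hne
    -- one of the two is `some b`
    have key : ∀ (i i' : X), P i = P i' → ∀ b, i.1 = some b → i = i' := by
      intro i i' hii b hb
      have h1 : (⟨_, jpp_mem⟩ - algebraMap K _ (((v ^ (b : ℕ))⁻¹ : Kˣ) : K) *
          HeckeRed.jF K (p * p) : modularFunctionFieldFullC K (p * p)) ∈
            (P i).toValuationSubring := by
        rw [hP2, map_sub, map_mul, hτ2, hτK, hτj, hb]
        exact lval_jT_some_sub b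
      rw [hii, hP2, map_sub, map_mul, hτ2, hτK, hτj] at h1
      have h2 := eq_of_lval_le hv i'.1 b h1
      exact Subtype.ext (hb.trans h2.symm)
    rcases hi : i.1 with _ | b
    · rcases hi' : i'.1 with _ | b'
      · exact hne (Subtype.ext (hi.trans hi'.symm))
      · exact hne (key i' i hii.symm b' hi').symm
    · exact hne (key i i' hii b hi)
  have htr := HeckeRed.transcendental_jF K (p * p)
  set T := (poleDiv (HeckeRed.jF K (p * p)) :
    Divisor K (modularFunctionFieldFullC K (p * p))).support with hT
  have hmemT : ∀ Q : Place K (modularFunctionFieldFullC K (p * p)),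
      Q ∈ T ↔ Q.ord (HeckeRed.jF K (p * p)) < 0 := by
    intro Q
    rw [hT, Finsupp.mem_support_iff, poleDiv_apply]
    constructor
    · intro h
      by_contra hcon
      exact h (max_eq_right (by omega))
    · intro h
      rw [max_eq_left (by omega)]
      omega
  have hcard : Nat.card {P : Place K (modularFunctionFieldFullC K (p * p)) //
      P.ord (HeckeRed.jF K (p * p)) < 0} = T.card := by
    rw [← Fintype.card_coe, ← Nat.card_eq_fintype_card]
    exact Nat.card_congr (Equiv.subtypeEquivRight fun Q => (hmemT Q).symm)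
  rw [hcard]
  by_contra hlt
  push Not at hlt
  set S := Finset.univ.image P with hS
  have hScard : S.card = p := by
    rw [hS, Finset.card_image_of_injective _ hinj, Finset.card_univ, hcardX]
  have hST : S ⊆ T := by
    intro Q hQ
    obtain ⟨i, -, rfl⟩ := Finset.mem_image.mp hQ
    rw [hmemT, hP1]; norm_num
  have hSeq : S = T := Finset.eq_of_subset_of_card_le hST (by omega)
  have hdeg := degree_poleDiv (K := K) htr
  rw [finrank_adjoin_eq_relfinrank] at hdeg
  have h5 : relfinrank K⟮((HeckeRed.jF K (p * p) : modularFunctionFieldFullC K (p * p)) :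
      LaurentSeries K)⟯ (modularFunctionFieldFullC K (p * p)) = p * (p + 1) :=
    relfinrank_jj_pp hpK
  rw [h5, degree_eq_sum, Finsupp.sum, ← hT, ← hSeq] at hdeg
  have h6 : ∀ Q ∈ S, (poleDiv (HeckeRed.jF K (p * p)) :
      Divisor K (modularFunctionFieldFullC K (p * p))) Q * (Q.deg : ℤ) = 1 := by
    intro Q hQ
    obtain ⟨i, -, rfl⟩ := Finset.mem_image.mp hQ
    have hfin : Module.Finite K (P i).ResidueField := inferInstance
    rw [poleDiv_apply, hP1, (P i).deg_eq_one_of_isAlgClosed_of_finite]
    norm_num
  rw [Finset.sum_congr rfl h6, Finset.sum_const, hScard] at hdeg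
  simp only [nsmul_eq_mul, mul_one] at hdeg
  have h7 := hp.out.two_le
  have h8 : (p : ℤ) = p * (p + 1) := by exact_mod_cast hdeg
  nlinarith

end Places

end Fermat.Agent.Cusps
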