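import Fermat.Agent.Cusps.CuspFam
import Fermat.Agent.Cusps.OrdVal
import Fermat.Agent.HeckeRed.FF
import Fermat.Agent.X0Places.Counts

/-!
# The number of cusps in characteristic `ℓ`
-/

set_option autoImplicit false

noncomputable section

open HahnSeries ModularCurve UpperHalfPlane Fermat.Agent.ModPoly Fermat.Agent.X0Places
  AlgebraicCurve WithZero IntermediateField
open scoped MatrixGroups

namespace Fermat.Agent.Cusps

open Fermat.Agent.FunField Fermat.Agent.FunField.PlaceLemmas Fermat.Agent.Igusa

theorem lval_twist {K : Type*} [Field K] (u : Kˣ) (x : LaurentSeries K) :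
    lval K (twist u x) = lval K x := by
  rcases eq_or_ne x 0 with rfl | hx
  · rw [map_zero]
  rw [lval_apply hx]
  apply lval_eq_of
  · intro k hk
    rw [twist_coeff, HahnSeries.coeff_eq_zero_of_lt_order hk, mul_zero]
  · rw [twist_coeff]
    exact mul_ne_zero (Units.ne_zero _) (HahnSeries.coeff_order_eq_zero.not.2 hx)

variable {L : Type*} [Field L] [Algebra ℚ L] [IsAlgClosed L] (ι : L →+* ℂ)
  (A : ValuationSubring L) {κ : Type*} [Field κ] (π : A →+* κ) [IsLocalHom π]
  (N : ℕ) [NeZero N] (hπ : Function.Surjective π)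
  {d : ℕ} (hpos : 0 < d)
  (hd : IntermediateField.relfinrank (IntermediateField.adjoin L {jqModC L})
    (modularFunctionFieldFullC L N) = d)
  (hd₁ : IntermediateField.relfinrank (IntermediateField.adjoin κ {jqModC κ})
    (modularFunctionFieldFullC κ N) = d)

theorem lval_qExpand_jq : lval κ (qExpand κ N (jqModC κ)) = exp (N : ℤ) := by
  have h : lval κ (qExpand κ N (jqModC κ)) = exp (-(-(N : ℤ))) := by
    apply lval_eq_of
    · intro k hk
      have := coeff_jtw_of_lt κ N 1 hk
      rwa [jtw, twist_one] at this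
    · have := coeff_jtw_neg κ N 1
      rw [jtw, twist_one] at this
      rw [this]
      simp
  rw [h, neg_neg]

/-- the embedding data of the cusps in characteristic `ℓ` -/
def embBar (hN : (N : κ) ≠ 0) :
    EmbData κ (modularFunctionFieldFullC κ N) (LaurentSeries κ) (XN N) where
  w := lval κ
  σ := csBar ι A π N hπ hpos hd hd₁
  inj := csBar_injective ι A π N hπ hpos hd hd₁ hN
  hL i j c := by rw [csBar_algebraMap, csBar_algebraMap]
  hwL i c := by
    rw [csBar_algebraMap]
    exact lval_algebraMap_le c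
  t := (HeckeRed.jF κ N)⁻¹
  ht i j := by
    rw [map_inv₀, map_inv₀]
    congr 1
    exact (csBar_j ι A π N hπ hpos hd hd₁ i).trans (csBar_j ι A π N hπ hpos hd hd₁ j).symm
  e0 := N
  e0_pos := Nat.pos_of_ne_zero (NeZero.ne N)
  hwt i := by
    rw [map_inv₀, map_inv₀]
    have h1 : csBar ι A π N hπ hpos hd hd₁ i (HeckeRed.jF κ N) = qExpand κ N (jqModC κ) :=
      csBar_j ι A π N hπ hpos hd hd₁ i
    rw [h1, lval_qExpand_jq, ← exp_neg]

variable [IsAlgClosed κ]

include ι hπ hpos hd hd₁ in
/-- **Upper bound for the number of cusps in characteristic `ℓ`.** -/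
theorem card_cusps_le (hN : (N : κ) ≠ 0) (hdN : d = Nat.card (XN N)) :
    Nat.card {P : Place κ (modularFunctionFieldFullC κ N) // P.ord (HeckeRed.jF κ N) < 0} ≤
      cuspCount N := by
  have hcard : Nat.card (XN N) = Module.finrank
      κ⟮(embBar ι A π N hπ hpos hd hd₁ hN).t⟯ (modularFunctionFieldFullC κ N) := by
    show _ = Module.finrank κ⟮(HeckeRed.jF κ N)⁻¹⟯ (modularFunctionFieldFullC κ N)
    rw [finrank_adjoin_inv, finrank_adjoin_eq_relfinrank]
    exact hdN.symm.trans hd₁.symm
  obtain ⟨w, hw⟩ := exists_csBar_T ι A π N hπ hpos hd hd₁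
  have hsmul1 : ∀ x : XN N, (embBar ι A π N hπ hpos hd hd₁ hN).place (ModularGroup.T • x) =
      (embBar ι A π N hπ hpos hd hd₁ hN).place x := by
    intro x
    apply EmbData.place_eq_of
    intro y
    show lval κ (csBar ι A π N hπ hpos hd hd₁ (ModularGroup.T • x) y) ≤ 1 ↔
      lval κ (csBar ι A π N hπ hpos hd hd₁ x y) ≤ 1
    rw [hw, lval_twist]
  have hsmul : ∀ (k : ℤ) (x : XN N),
      (embBar ι A π N hπ hpos hd hd₁ hN).place (ModularGroup.T ^ k • x) =
      (embBar ι A π N hπ hpos hd hd₁ hN).place x := by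
    intro k
    induction k using Int.induction_on with
    | zero => intro x; rw [zpow_zero, one_smul]
    | succ k ih =>
      intro x
      rw [zpow_add, zpow_one, mul_smul, ih, hsmul1]
    | pred k ih =>
      intro x
      have h := ih (ModularGroup.T ^ (-1 : ℤ) • x)
      rw [sub_eq_add_neg, zpow_add, mul_smul, h]
      have h2 := hsmul1 (ModularGroup.T ^ (-1 : ℤ) • x)
      rw [← mul_smul, ← zpow_one_add, show (1 : ℤ) + -1 = 0 by ring, zpow_zero, one_smul] at h2
      exact h2.symm
  have hfin : Finite (MulAction.orbitRel.Quotient (Subgroup.zpowers ModularGroup.T) (XN N)) :=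
    Quotient.finite _
  rw [← Fermat.Agent.Gamma0Comb.card_orbits_T N]
  let f : MulAction.orbitRel.Quotient (Subgroup.zpowers ModularGroup.T) (XN N) →
      Place κ (modularFunctionFieldFullC κ N) :=
    Quotient.lift (fun x => (embBar ι A π N hπ hpos hd hd₁ hN).place x) (by
      rintro x y ⟨⟨g, k, rfl⟩, h⟩
      have h' : ModularGroup.T ^ k • y = x := h
      show (embBar ι A π N hπ hpos hd hd₁ hN).place x =
        (embBar ι A π N hπ hpos hd hd₁ hN).place y
      rw [← h', hsmul])
  have hne : Nonempty (XN N) := inferInstance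
  let F : MulAction.orbitRel.Quotient (Subgroup.zpowers ModularGroup.T) (XN N) →
      {P : Place κ (modularFunctionFieldFullC κ N) // P.ord (HeckeRed.jF κ N) < 0} :=
    fun q => ⟨f q, by
      induction q using Quotient.inductionOn with
      | h x =>
        have h1 := (embBar ι A π N hπ hpos hd hd₁ hN).ord_t_pos x
        have h2 : 0 < ((embBar ι A π N hπ hpos hd hd₁ hN).place x).ord
          (HeckeRed.jF κ N)⁻¹ := h1
        rw [Place.ord_inv] at h2
        show ((embBar ι A π N hπ hpos hd hd₁ hN).place x).ord (HeckeRed.jF κ N) < 0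
        omega⟩
  apply Nat.card_le_card_of_surjective F
  rintro ⟨P, hP⟩
  obtain ⟨x, hx⟩ := (embBar ι A π N hπ hpos hd hd₁ hN).exists_place_eq hcard P (by
    show 0 < P.ord (HeckeRed.jF κ N)⁻¹
    rw [P.ord_inv]
    omega)
  exact ⟨Quotient.mk _ x, Subtype.ext hx⟩

end Fermat.Agent.Cusps
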