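import Fermat.Agent.X0Places.Cusps
import Fermat.Agent.Igusa.BarData
import Fermat.Agent.ModPoly.BaseCase

/-!
# The expansions at the cusps, with coefficients in `L`
-/

set_option autoImplicit false

noncomputable section

open HahnSeries ModularCurve UpperHalfPlane Fermat.Agent.ModPoly Fermat.Agent.X0Places
open scoped MatrixGroups

namespace Fermat.Agent.Cusps

section Jtw

/-- the series `j(u q^m)` -/
def jtw (R : Type*) [CommRing R] (m : ℕ) [NeZero m] (u : Rˣ) : LaurentSeries R :=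
  qExpand R m (twist u (jqModC R))

theorem coeffMap_jtw {R S : Type*} [CommRing R] [CommRing S] (f : R →+* S) (m : ℕ) [NeZero m]
    (u : Rˣ) : coeffMap f (jtw R m u) = jtw S m (Units.map (f : R →* S) u) := by
  rw [jtw, jtw, coeffMap_qExpand, coeffMap_twist, coeffMap_jqModC]

theorem coeff_jq_neg_one (K : Type*) [Field K] : (jqModC K).coeff (-1) = 1 := by
  have := coeff_jqModC_pow_self K 1
  rw [pow_one] at this
  exact_mod_cast this

theorem coeff_jtw_neg (K : Type*) [Field K] (m : ℕ) [NeZero m] (u : Kˣ) :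
    (jtw K m u).coeff (-(m : ℤ)) = ((u⁻¹ : Kˣ) : K) := by
  rw [jtw, show (-(m : ℤ)) = (m : ℤ) * (-1) by ring, qExpand_coeff_mul, twist_coeff,
    coeff_jq_neg_one, mul_one, zpow_neg_one]

theorem coeff_jtw_of_lt (K : Type*) [Field K] (m : ℕ) [NeZero m] (u : Kˣ) {k : ℤ}
    (hk : k < -(m : ℤ)) : (jtw K m u).coeff k = 0 := by
  by_cases hd : (m : ℤ) ∣ k
  · obtain ⟨c, rfl⟩ := hd
    have hm : (0 : ℤ) < m := by exact_mod_cast Nat.pos_of_ne_zero (NeZero.ne m)
    have hc : c < -1 := by
      by_contra hcon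
      push Not at hcon
      nlinarith
    rw [jtw, qExpand_coeff_mul, twist_coeff]
    have : (jqModC K).coeff c = 0 := by
      apply HahnSeries.coeff_eq_zero_of_lt_order
      rw [order_jqModC]; exact hc
    rw [this, mul_zero]
  · rw [jtw, qExpand_coeff_of_not_dvd m _ hd]

/-- `m` and `u` are determined by `j(u q^m)`. -/
theorem jtw_inj {K : Type*} [Field K] {m m' : ℕ} [NeZero m] [NeZero m'] {u u' : Kˣ}
    (h : jtw K m u = jtw K m' u') : m = m' ∧ u = u' := by
  have key : ∀ (m m' : ℕ) [NeZero m] [NeZero m'] (u u' : Kˣ), jtw K m u = jtw K m' u' →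
      ¬ m' < m := by
    intro m m' _ _ u u' h hlt
    have h1 := coeff_jtw_neg K m u
    rw [h, coeff_jtw_of_lt K m' u' (by omega)] at h1
    exact (Units.ne_zero _) h1.symm
  have hm : m = m' := by
    have h1 := key m m' u u' h
    have h2 := key m' m u' u h.symm
    omega
  subst hm
  refine ⟨rfl, ?_⟩
  have h1 := coeff_jtw_neg K m u
  rw [h, coeff_jtw_neg, Units.val_inj, inv_inj] at h1
  exact h1.symm

/-- `j(u q^m)` is tame if `u` is a root of unity. -/
theorem jtw_mem_tame {L : Type*} [Field L] (m : ℕ) [NeZero m] {u : Lˣ} {M : ℕ} (hM : 0 < M)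
    (hu : u ^ M = 1) : jtw L m u ∈ Igusa.tame L := by
  refine ⟨Submodule.span ℤ ((fun i : ℕ => ((u ^ i : Lˣ) : L)) '' (Finset.range M : Set ℕ)),
    Submodule.fg_span ((Finset.finite_toSet _).image _), fun n => ?_⟩
  by_cases hd : (m : ℤ) ∣ n
  · obtain ⟨c, rfl⟩ := hd
    rw [jtw, qExpand_coeff_mul, twist_coeff]
    have h1 : u ^ c = u ^ (c % M).toNat := by
      have hM' : (M : ℤ) ≠ 0 := by exact_mod_cast hM.ne'
      have h2 : 0 ≤ c % M := Int.emod_nonneg _ hM'
      rw [← zpow_natCast, Int.toNat_of_nonneg h2]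
      conv_lhs => rw [← Int.mul_ediv_add_emod c M]
      rw [zpow_add, zpow_mul, zpow_natCast, hu, one_zpow, one_mul]
    obtain ⟨z, hz⟩ : ∃ z : ℤ, (jqModC L).coeff c = z := by
      refine ⟨(jqModC ℤ).coeff c, ?_⟩
      have := congrArg (fun y : LaurentSeries L => y.coeff c)
        (coeffMap_jqModC (R := ℤ) (Int.castRingHom L))
      simp only [coeffMap_coeff] at this
      rw [← this]; rfl
    rw [hz, h1, mul_comm, ← zsmul_eq_mul]
    refine Submodule.smul_mem _ _ (Submodule.subset_span ⟨(c % M).toNat, ?_, rfl⟩)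
    rw [Finset.mem_coe, Finset.mem_range]
    have hM' : (0 : ℤ) < M := by exact_mod_cast hM
    have h2 : 0 ≤ c % M := Int.emod_nonneg _ hM'.ne'
    have h3 : c % M < M := Int.emod_lt_of_pos _ hM'
    omega
  · rw [jtw, qExpand_coeff_of_not_dvd m _ hd]
    exact Submodule.zero_mem _

end Jtw

section Gen

variable {L : Type*} [Field L] (N : ℕ)

/-- A subfield of `F_N(L)` containing constants and the generators is everything. -/
theorem full_subfield_eq_top (P : Subfield (modularFunctionFieldFullC L N))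
    (hC : ∀ c : L, algebraMap L (modularFunctionFieldFullC L N) c ∈ P)
    (hgen : ∀ (e : ℕ) (_ : NeZero e) (he : e ∣ N),
      (⟨qExpand L e (jqModC L), jqModCd_mem_full L N he⟩ : modularFunctionFieldFullC L N) ∈ P)
    (x : modularFunctionFieldFullC L N) : x ∈ P := by
  let P' : IntermediateField L (modularFunctionFieldFullC L N) :=
    { P with algebraMap_mem' := hC }
  set G : IntermediateField L (LaurentSeries L) :=
    P'.map (modularFunctionFieldFullC L N).val with hG
  have hle : modularFunctionFieldFullC L N ≤ G := by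
    conv_lhs => rw [modularFunctionFieldFullC]
    rw [IntermediateField.adjoin_le_iff]
    rintro _ ⟨e, he, heN, rfl⟩
    exact ⟨⟨qExpand L e (jqModC L), jqModCd_mem_full L N heN⟩, hgen e he heN, rfl⟩
  obtain ⟨y, hy, hyx⟩ := hle x.2
  have : y = x := Subtype.ext hyx
  rw [← this]
  exact hy

theorem full_hom_ext {Ω : Type*} [Field Ω] {φ ψ : modularFunctionFieldFullC L N →+* Ω}
    (hC : ∀ c : L, φ (algebraMap L _ c) = ψ (algebraMap L _ c))
    (hgen : ∀ (e : ℕ) (_ : NeZero e) (he : e ∣ N),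
      φ ⟨qExpand L e (jqModC L), jqModCd_mem_full L N he⟩ =
        ψ ⟨qExpand L e (jqModC L), jqModCd_mem_full L N he⟩) : φ = ψ := by
  ext x
  exact full_subfield_eq_top N (φ.eqLocusField ψ) hC hgen x

end Gen

section Roots

/-- roots of unity of `ℂ` come from any algebraically closed subfield -/
theorem exists_unit_of_pow_eq_one {L : Type*} [Field L] [IsAlgClosed L] (ι : L →+* ℂ) {u : ℂˣ}
    {n : ℕ} (hn : 0 < n) (hu : u ^ n = 1) :
    ∃ w : Lˣ, Units.map (ι : L →* ℂ) w = u ∧ w ^ n = 1 := by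
  have hchar : CharZero L := by
    constructor
    intro a b hab
    have := congrArg ι hab
    rw [map_natCast, map_natCast] at this
    exact_mod_cast this
  have : NeZero n := ⟨hn.ne'⟩
  have : NeZero (n : L) := ⟨by exact_mod_cast hn.ne'⟩
  obtain ⟨ζ, hζ⟩ := HasEnoughRootsOfUnity.exists_primitiveRoot L n
  have hζ' : IsPrimitiveRoot (ι ζ) n := hζ.map_of_injective ι.injective
  have hu' : (u : ℂ) ^ n = 1 := by
    rw [← Units.val_pow_eq_pow_val, hu, Units.val_one]
  obtain ⟨w, rfl⟩ := hζ.isUnit hn.ne'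
  have hw : IsPrimitiveRoot w n := IsPrimitiveRoot.coe_units_iff.mp hζ
  obtain ⟨i, -, hi⟩ := hζ'.eq_pow_of_pow_eq_one hu'
  refine ⟨w ^ i, Units.ext ?_, by rw [← pow_mul, mul_comm, pow_mul, hw.pow_eq_one, one_pow]⟩
  rw [map_pow, Units.val_pow_eq_pow_val, ← hi]
  rfl

end Roots

section Expansion

open Function.Periodic (qParam)

/-- `j(eτ)` has the expansion `j(u q_N^m)` at each cusp, `u^N = 1`. -/
theorem exists_hasLaurent_jd (e : ℕ) (he : 0 < e) (N : ℕ) [NeZero N] (heN : e ∣ N)
    (γ : SL(2, ℤ)) : ∃ (m : ℕ) (_ : NeZero m) (u : ℂˣ), u ^ N = 1 ∧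
      HasLaurent N (fun τ => jd e he (γ • τ)) (jtw ℂ m u) := by
  obtain ⟨γ', A, D, B, hA, hD, hAD, h⟩ := exists_decomp e he γ
  obtain ⟨M', hM'⟩ := heN
  have hN : 0 < N := Nat.pos_of_ne_zero (NeZero.ne N)
  set M := A * M' with hM
  have hNM : N = D * M := by rw [hM', ← hAD, hM]; ring
  have hMpos : 0 < M := by
    rcases Nat.eq_zero_or_pos M with h0 | h0
    · rw [hNM, h0, mul_zero] at hN; exact absurd hN (lt_irrefl _)
    · exact h0
  have : NeZero (A * M) := ⟨(Nat.mul_pos hA hMpos).ne'⟩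
  have h1 := hasLaurent_jInv.subst (h' := (N : ℝ)) (affH A D B hA hD)
    (Units.mk0 (Complex.exp (2 * Real.pi * Complex.I * B / D)) (Complex.exp_ne_zero _)) (A * M)
    (by
      intro τ
      rw [Units.val_mk0, hNM]
      exact qParam_affH A D B hA hD M τ hMpos)
  have h2 : (fun τ => jd e he (γ • τ)) = Fermat.Agent.JInv.jInv ∘ affH A D B hA hD := by
    funext τ
    simp only [Function.comp_apply, jd]
    rw [h, Fermat.Agent.JInv.jInv_smul]
  rw [h2]
  refine ⟨A * M, this, _, ?_, h1⟩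
  apply Units.ext
  rw [Units.val_pow_eq_pow_val, Units.val_mk0, Units.val_one, ← Complex.exp_nat_mul]
  have hDc : (D : ℂ) ≠ 0 := by exact_mod_cast hD.ne'
  have h3 : (N : ℂ) * (2 * Real.pi * Complex.I * B / D) = ((M * B : ℤ) : ℂ) *
      (2 * Real.pi * Complex.I) := by
    rw [hNM]
    push_cast
    field_simp
  rw [h3, Complex.exp_int_mul_two_pi_mul_I]

end Expansion

end Fermat.Agent.Cusps
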