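import Fermat.Agent.Igusa.DeuringData
import Fermat.Agent.ModPoly.Twist

/-!
# Reduction of embeddings of the modular function field into Laurent series

Let `σ : F_N(L) → L((t))` be an embedding over `L` with `σ(j) = j(t^{N'})` and all `σ(j(q^e))`
tame. Then `σ` is compatible with the Gauss valuations and induces `F_N(κ) → κ((t))`.
-/

set_option autoImplicit false

noncomputable section

open HahnSeries ModularCurve Module Polynomial

namespace Fermat.Agent.Cusps

open Fermat.Agent.Igusa

section QExpand

variable {L : Type*} [Field L] (A : ValuationSubring L) {κ : Type*} [Field κ] (π : A →+* κ)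

theorem qExpand_mem_gaussRing (n : ℕ) [NeZero n] {x : LaurentSeries L} (hx : x ∈ gaussRing A π) :
    qExpand L n x ∈ gaussRing A π := by
  obtain ⟨P, Q, hQ, h⟩ := hx
  refine ⟨qExpand A n P, qExpand A n Q, ?_, ?_⟩
  · rw [coeffMap_qExpand]
    exact fun h0 => hQ (qExpand_injective n (h0.trans (map_zero _).symm))
  · rw [coeffMap_qExpand, coeffMap_qExpand, ← map_mul, h]

theorem gaussRes_qExpand (n : ℕ) [NeZero n] (x : gaussRing A π) :
    gaussRes A π ⟨qExpand L n (x : LaurentSeries L), qExpand_mem_gaussRing A π n x.2⟩ =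
      qExpand κ n (gaussRes A π x) := by
  obtain ⟨P, Q, hQ, h⟩ := x.2
  have h2 : coeffMap π (qExpand A n Q) ≠ 0 := by
    rw [coeffMap_qExpand]
    exact fun h0 => hQ (qExpand_injective n (h0.trans (map_zero _).symm))
  have h3 : qExpand L n (x : LaurentSeries L) * coeffMap A.subtype (qExpand A n Q) =
      coeffMap A.subtype (qExpand A n P) := by
    rw [coeffMap_qExpand, coeffMap_qExpand, ← map_mul, h]
  have e1 : gaussRes A π ⟨qExpand L n (x : LaurentSeries L), qExpand_mem_gaussRing A π n x.2⟩ =
      coeffMap π (qExpand A n P) / coeffMap π (qExpand A n Q) := gaussRes_eq _ h2 h3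
  have e2 : gaussRes A π x = coeffMap π P / coeffMap π Q := gaussRes_eq x hQ h
  have e3 : coeffMap π (qExpand A n P) = qExpand κ n (coeffMap π P) := coeffMap_qExpand _ _ _
  have e4 : coeffMap π (qExpand A n Q) = qExpand κ n (coeffMap π Q) := coeffMap_qExpand _ _ _
  rw [e1, e2, e3, e4]
  exact (map_div₀ (qExpand κ n) _ _).symm

end QExpand

section Main

variable {L : Type*} [Field L] (A : ValuationSubring L) {κ : Type*} [Field κ] (π : A →+* κ)
variable (N : ℕ) [IsLocalHom π] (hπ : Function.Surjective π)
  {d : ℕ} (hpos : 0 < d)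
  (hd : IntermediateField.relfinrank (IntermediateField.adjoin L {jqModC L})
    (modularFunctionFieldFullC L N) = d)
  (hd₁ : IntermediateField.relfinrank (IntermediateField.adjoin κ {jqModC κ})
    (modularFunctionFieldFullC κ N) = d)
  (σ : modularFunctionFieldFullC L N →ₐ[L] LaurentSeries L) (n : ℕ) [NeZero n]
  (hj : σ ⟨jqModC L, jqModC_mem_full L N⟩ = qExpand L n (jqModC L))
  (htame : ∀ (e : ℕ) (_ : NeZero e) (he : e ∣ N),
    σ ⟨qExpand L e (jqModC L), jqModCd_mem_full L N he⟩ ∈ tame L)

include hj in
/-- On `L(j)`, the embedding is `q ↦ q^n`. -/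
theorem emb_eq_qExpand (x : modularFunctionFieldFullC L N)
    (hx : (x : LaurentSeries L) ∈ IntermediateField.adjoin L {jqModC L}) :
    σ x = qExpand L n (x : LaurentSeries L) := by
  obtain ⟨r, s, hrs⟩ := (IntermediateField.mem_adjoin_simple_iff L _).mp hx
  set j : modularFunctionFieldFullC L N := ⟨jqModC L, jqModC_mem_full L N⟩ with hjdef
  have h1 : ∀ p : L[X], ((aeval j p : modularFunctionFieldFullC L N) : LaurentSeries L) =
      aeval (jqModC L) p := by
    intro p
    exact (Polynomial.aeval_algHom_apply (modularFunctionFieldFullC L N).val j p).symm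
  have h2 : ∀ p : L[X], σ (aeval j p) = qExpand L n (aeval (jqModC L) p) := by
    intro p
    rw [← Polynomial.aeval_algHom_apply, hj]
    have := Polynomial.aeval_algHom_apply (qExpandAlgHomC L n) (jqModC L) p
    rw [qExpandAlgHomC_apply, qExpandAlgHomC_apply] at this
    exact this
  have h3 : x = aeval j r / aeval j s := by
    apply Subtype.ext
    rw [hrs]
    show _ = ((aeval j r : modularFunctionFieldFullC L N) : LaurentSeries L) /
      ((aeval j s : modularFunctionFieldFullC L N) : LaurentSeries L)
    rw [h1, h1]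
  rw [h3, map_div₀, h2, h2, ← map_div₀]
  congr 1
  show _ = ((aeval j r : modularFunctionFieldFullC L N) : LaurentSeries L) /
      ((aeval j s : modularFunctionFieldFullC L N) : LaurentSeries L)
  rw [h1, h1]

include htame in
/-- The image of the embedding is contained in a tame field. -/
theorem exists_tameField : ∃ E : IntermediateField L (LaurentSeries L), IsTameField E ∧
    ∀ x, σ x ∈ E := by
  set T : Set (LaurentSeries L) := {y | ∃ (e : ℕ) (_ : NeZero e) (he : e ∣ N),
    σ ⟨qExpand L e (jqModC L), jqModCd_mem_full L N he⟩ = y} with hT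
  have hTt : T ⊆ tame L := by
    rintro _ ⟨e, he, heN, rfl⟩
    exact htame e he heN
  refine ⟨IntermediateField.adjoin L T, isTameField_adjoin hTt, ?_⟩
  set G : IntermediateField L (LaurentSeries L) :=
    ((IntermediateField.adjoin L T).comap σ).map (modularFunctionFieldFullC L N).val with hG
  have hle : modularFunctionFieldFullC L N ≤ G := by
    conv_lhs => rw [modularFunctionFieldFullC]
    rw [IntermediateField.adjoin_le_iff]
    rintro _ ⟨e, he, heN, rfl⟩
    refine ⟨⟨qExpand L e (jqModC L), jqModCd_mem_full L N heN⟩, ?_, rfl⟩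
    exact IntermediateField.subset_adjoin _ _ ⟨e, he, heN, rfl⟩
  intro x
  obtain ⟨y, hy, hyx⟩ := hle x.2
  have : y = x := Subtype.ext hyx
  rw [← this]
  exact hy

include htame in
theorem emb_mem_or_inv_mem (x : modularFunctionFieldFullC L N) :
    σ x ∈ gaussRing A π ∨ σ x⁻¹ ∈ gaussRing A π := by
  obtain ⟨E, hE, h⟩ := exists_tameField N σ htame
  rw [map_inv₀]
  exact mem_or_inv_mem_gaussRing A π (h x) hE

/-- the valuation ring of `F_N(L)` pulled back from the Gauss valuation along `σ` -/
def embVal : ValuationSubring (modularFunctionFieldFullC L N) where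
  toSubring := (gaussRing A π).comap (σ : modularFunctionFieldFullC L N →+* LaurentSeries L)
  mem_or_inv_mem' x := emb_mem_or_inv_mem A π N σ htame x

theorem mem_embVal {x : modularFunctionFieldFullC L N} :
    x ∈ embVal A π N σ htame ↔ σ x ∈ gaussRing A π := Iff.rfl

/-- Valuation subrings are integrally closed. -/
theorem mem_of_isIntegral_of_le {F : Type*} [Field F] (V : ValuationSubring F) (S : Subring F)
    (hS : S ≤ V.toSubring) {x : F} (hx : IsIntegral S x) : x ∈ V := by
  have h1 : IsIntegral V x := by
    obtain ⟨p, hp, h0⟩ := hx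
    refine ⟨p.map (Subring.inclusion hS), hp.map _, ?_⟩
    rw [Polynomial.eval₂_map]
    exact h0
  obtain ⟨y, hy⟩ := (IsIntegrallyClosed.isIntegral_iff (R := V) (K := F)).mp h1
  rw [← hy]
  exact y.2

include hπ hpos hd₁ in
/-- a residually independent family in the Gauss valuation ring of `F_N(L)` over `L(j)`. -/
theorem exists_resIndep_full :
    ∃ b : Fin d → gaussVal A π (isTameField_full (L := L) N),
      ResIndep (gaussVal A π (isTameField_full (L := L) N))
        (gaussValRes A π (isTameField_full (L := L) N))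
        (baseSub (modularFunctionFieldFullC L N) (IntermediateField.adjoin L {jqModC L})) b := by
  obtain ⟨b, hb, -⟩ := exists_resIndep A π (isTameField_full (L := L) N)
    (modularFunctionFieldFullC κ N) (IntermediateField.adjoin L {jqModC L})
    (IntermediateField.adjoin κ {jqModC κ})
    (fun x hx => gaussRes_mem_adjoin_j A π hx)
    (fun y hy => full_le_gaussImage A π hπ N hy) (adjoin_j_le_full κ N) hd₁ hpos
  exact ⟨b, hb⟩

include hπ hpos hd hd₁ hj htame in
/-- The embedding maps the Gauss valuation ring into the Gauss ring. -/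
theorem emb_mem_gaussRing_of_mem {x : modularFunctionFieldFullC L N}
    (hx : x ∈ gaussVal A π (isTameField_full (L := L) N)) : σ x ∈ gaussRing A π := by
  obtain ⟨b, hb⟩ := exists_resIndep_full A π N hπ hpos hd₁
  have hfin : 0 < finrank (baseSub (modularFunctionFieldFullC L N)
      (IntermediateField.adjoin L {jqModC L})) (modularFunctionFieldFullC L N) := by
    rw [finrank_baseSub, hd]; exact hpos
  have : FiniteDimensional (baseSub (modularFunctionFieldFullC L N)
    (IntermediateField.adjoin L {jqModC L})) (modularFunctionFieldFullC L N) :=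
    FiniteDimensional.of_finrank_pos hfin
  have h1 := hb.isIntegral (resLocal_gaussVal A π (isTameField_full N)) (by
    rw [Fintype.card_fin, finrank_baseSub, hd]) hx
  refine (mem_embVal A π N σ htame).mp (mem_of_isIntegral_of_le _ _ ?_ h1)
  rintro y ⟨hy1, hy2⟩
  show σ y ∈ gaussRing A π
  rw [emb_eq_qExpand N σ n hj y hy2]
  exact qExpand_mem_gaussRing A π n hy1

include hπ hpos hd hd₁ hj htame in
/-- Elements with zero residue are mapped to elements with zero residue. -/
theorem emb_res_eq_zero (x : gaussVal A π (isTameField_full (L := L) N))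
    (hx : gaussValRes A π (isTameField_full (L := L) N) x = 0)
    (h : σ (x : modularFunctionFieldFullC L N) ∈ gaussRing A π) :
    gaussRes A π ⟨_, h⟩ = 0 := by
  classical
  obtain ⟨b, hb⟩ := exists_resIndep_full A π N hπ hpos hd₁
  have hfin : 0 < finrank (baseSub (modularFunctionFieldFullC L N)
      (IntermediateField.adjoin L {jqModC L})) (modularFunctionFieldFullC L N) := by
    rw [finrank_baseSub, hd]; exact hpos
  have : FiniteDimensional (baseSub (modularFunctionFieldFullC L N)
    (IntermediateField.adjoin L {jqModC L})) (modularFunctionFieldFullC L N) :=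
    FiniteDimensional.of_finrank_pos hfin
  obtain ⟨c, hc0, hcO, hcs⟩ := hb.exists_coords (resLocal_gaussVal A π (isTameField_full N)) (by
    rw [Fintype.card_fin, finrank_baseSub, hd]) x.2
  have hσO : ∀ y : gaussVal A π (isTameField_full (L := L) N),
      σ (y : modularFunctionFieldFullC L N) ∈ gaussRing A π :=
    fun y => emb_mem_gaussRing_of_mem A π N hπ hpos hd hd₁ σ n hj htame y.2
  let ρ : gaussVal A π (isTameField_full (L := L) N) →+* LaurentSeries κ :=
    (gaussRes A π).comp (RingHom.codRestrict
      ((σ : modularFunctionFieldFullC L N →+* LaurentSeries L).comp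
        (gaussVal A π (isTameField_full (L := L) N)).subtype) (gaussRing A π) hσO)
  have hcx : x = ∑ i, (⟨c i, hcO i⟩ : gaussVal A π (isTameField_full (L := L) N)) * b i := by
    apply Subtype.ext
    rw [hcs]
    simp
  have hres : ∀ i, gaussValRes A π (isTameField_full (L := L) N) ⟨c i, hcO i⟩ = 0 := by
    refine hb (fun i => ⟨c i, hcO i⟩) hc0 ?_
    rw [← hx]
    conv_rhs => rw [hcx]
    rw [map_sum]
    exact Finset.sum_congr rfl fun i _ => (map_mul _ _ _).symm
  have hρ : ∀ i, ρ ⟨c i, hcO i⟩ = 0 := by
    intro i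
    have h3 : σ (c i) = qExpand L n (c i : LaurentSeries L) :=
      emb_eq_qExpand N σ n hj (c i) (hc0 i)
    have h4 : ρ ⟨c i, hcO i⟩ = gaussRes A π ⟨qExpand L n (c i : LaurentSeries L),
        qExpand_mem_gaussRing A π n (hcO i)⟩ := gaussRes_congr h3
    rw [h4, gaussRes_qExpand A π n ⟨(c i : LaurentSeries L), hcO i⟩]
    have h5 : gaussRes A π ⟨(c i : LaurentSeries L), hcO i⟩ = 0 := hres i
    rw [h5, map_zero]
  show ρ x = 0
  rw [hcx, map_sum]
  refine Finset.sum_eq_zero fun i _ => ?_
  rw [map_mul, hρ i, zero_mul]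

include hj htame in
/-- **Reduction of an embedding.** -/
theorem exists_resEmb :
    ∃ σ₁ : modularFunctionFieldFullC κ N →+* LaurentSeries κ,
      ∀ x : gaussVal A π (isTameField_full (L := L) N),
        ∃ h : σ (x : modularFunctionFieldFullC L N) ∈ gaussRing A π,
          σ₁ (fullRes A π N hπ hpos hd hd₁ x) = gaussRes A π ⟨_, h⟩ := by
  have hσO : ∀ y : gaussVal A π (isTameField_full (L := L) N),
      σ (y : modularFunctionFieldFullC L N) ∈ gaussRing A π :=
    fun y => emb_mem_gaussRing_of_mem A π N hπ hpos hd hd₁ σ n hj htame y.2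
  let ρ : gaussVal A π (isTameField_full (L := L) N) →+* LaurentSeries κ :=
    (gaussRes A π).comp (RingHom.codRestrict
      ((σ : modularFunctionFieldFullC L N →+* LaurentSeries L).comp
        (gaussVal A π (isTameField_full (L := L) N)).subtype) (gaussRing A π) hσO)
  have hsurj := fullRes_surjective A π N hπ hpos hd hd₁
  have hker : RingHom.ker (fullRes A π N hπ hpos hd hd₁) ≤ RingHom.ker ρ := by
    intro x hx
    rw [RingHom.mem_ker] at hx ⊢
    exact emb_res_eq_zero A π N hπ hpos hd hd₁ σ n hj htame x (congrArg Subtype.val hx) (hσO x)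
  refine ⟨RingHom.liftOfRightInverse (fullRes A π N hπ hpos hd hd₁)
    (Function.surjInv hsurj) (Function.rightInverse_surjInv hsurj) ⟨ρ, hker⟩, fun x => ⟨hσO x, ?_⟩⟩
  rw [RingHom.liftOfRightInverse_comp_apply]
  rfl

end Main

end Fermat.Agent.Cusps
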