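import Fermat.Agent.Cusps.CuspEmb
import Fermat.Agent.Cusps.ResEmb
import Fermat.Agent.X0Places.Points
import Fermat.Agent.X0Places.Degree

/-!
# The family of cusp expansions over `L` and its reduction
-/

set_option autoImplicit false

noncomputable section

open HahnSeries ModularCurve UpperHalfPlane Fermat.Agent.ModPoly Fermat.Agent.X0Places
open scoped MatrixGroups

namespace Fermat.Agent.Cusps

section Fam

variable {L : Type*} [Field L] [Algebra ℚ L] (ι : L →+* ℂ) (N : ℕ) [NeZero N]

omit [NeZero N] in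
theorem mem_FF {x : LaurentSeries L} (hx : x ∈ modularFunctionFieldFullC L N) : x ∈ FF L N := by
  rw [FF, Igusa.laurentBaseChange_full L N]; exact hx

omit [NeZero N] in
theorem mem_full_of_FF {x : LaurentSeries L} (hx : x ∈ FF L N) :
    x ∈ modularFunctionFieldFullC L N := by
  rw [FF, Igusa.laurentBaseChange_full L N] at hx; exact hx

/-- the identification of `F_N(L)` with the base change -/
def inFF : modularFunctionFieldFullC L N →+* FF L N where
  toFun x := ⟨x, mem_FF N x.2⟩
  map_one' := Subtype.ext rfl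
  map_mul' _ _ := Subtype.ext rfl
  map_zero' := Subtype.ext rfl
  map_add' _ _ := Subtype.ext rfl

omit [NeZero N] in
theorem inFF_apply (x : modularFunctionFieldFullC L N) : inFF N x = ⟨x, mem_FF N x.2⟩ := rfl

omit [NeZero N] in
theorem coe_inFF (x : modularFunctionFieldFullC L N) :
    ((inFF N x : FF L N) : LaurentSeries L) = x := by rw [inFF_apply]

omit [NeZero N] in
theorem inFF_surjective : Function.Surjective (inFF (L := L) N) := fun x =>
  ⟨⟨x, mem_full_of_FF N x.2⟩, Subtype.ext (coe_inFF N _)⟩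

/-- cusp expansions over `ℂ` -/
def cs (c : XN N) : modularFunctionFieldFullC L N →+* LaurentSeries ℂ :=
  (cuspSigma ι N c).comp (inFF N)

theorem cs_apply (c : XN N) (x : modularFunctionFieldFullC L N) :
    cs ι N c x = cuspSigma ι N c (inFF N x) := rfl

omit [NeZero N] in
theorem coe_algebraMap_FF (a : L) :
    ((algebraMap L (FF L N) a : FF L N) : LaurentSeries L) = algebraMap L (LaurentSeries L) a := rfl

omit [NeZero N] [Algebra ℚ L] in
theorem coe_algebraMap_full (a : L) :
    ((algebraMap L (modularFunctionFieldFullC L N) a : modularFunctionFieldFullC L N) :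
      LaurentSeries L) = algebraMap L (LaurentSeries L) a := rfl

omit [NeZero N] in
theorem inFF_algebraMap (a : L) : inFF N (algebraMap L _ a) = algebraMap L (FF L N) a := by
  apply Subtype.ext
  rw [coe_inFF, coe_algebraMap_FF, coe_algebraMap_full]

theorem cs_algebraMap (c : XN N) (a : L) :
    cs ι N c (algebraMap L _ a) = algebraMap ℂ (LaurentSeries ℂ) (ι a) := by
  rw [cs_apply, inFF_algebraMap, cuspSigma_algebraMap, algebraMap_laurentSeries_eq_single,
    HahnSeries.C_apply]

theorem cs_jd (c : XN N) (e : ℕ) [he : NeZero e] (heN : e ∣ N) :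
    ∃ (m : ℕ) (_ : NeZero m) (u : ℂˣ), u ^ N = 1 ∧
      cs ι N c ⟨qExpand L e (jqModC L), jqModCd_mem_full L N heN⟩ = jtw ℂ m u := by
  induction c using QuotientGroup.induction_on with
  | H g =>
    have he0 : 0 < e := Nat.pos_of_ne_zero he.out
    obtain ⟨m, hm, u, hu, h⟩ := exists_hasLaurent_jd e he0 N heN g⁻¹
    refine ⟨m, hm, u, hu, ?_⟩
    rw [cs_apply, cuspSigma_mk]
    apply cuspEmb_of_mem g⁻¹ (isAn_jd e he0 heN) _ h
    rw [coe_inFF, coeffMap_qExpand, coeffMap_jqModC]
    exact hasLaurent_jd_one e he0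

theorem cs_injective : Function.Injective (cs (L := L) ι N) := by
  intro c c' h
  apply cuspSigma_injective (L := L) ι N
  ext1 x
  obtain ⟨y, rfl⟩ := inFF_surjective N x
  exact RingHom.congr_fun h y

theorem cs_T (c : XN N) (x : modularFunctionFieldFullC L N) :
    cs ι N (ModularGroup.T • c) x = twist (zetaN N ^ (-1 : ℤ)) (cs ι N c x) := by
  have := cuspSigma_T_zpow_smul ι N c 1 (inFF N x)
  rwa [zpow_one] at this

variable [IsAlgClosed L]

theorem cs_mem_range (c : XN N) (x : modularFunctionFieldFullC L N) :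
    cs ι N c x ∈ (coeffMap ι).fieldRange := by
  refine full_subfield_eq_top N ((coeffMap ι).fieldRange.comap (cs ι N c)) ?_ ?_ x
  · intro a
    rw [Subfield.mem_comap, cs_algebraMap]
    refine ⟨algebraMap L (LaurentSeries L) a, ?_⟩
    rw [algebraMap_laurentSeries_eq_single, coeffMap_single, algebraMap_laurentSeries_eq_single]
  · intro e he heN
    rw [Subfield.mem_comap]
    obtain ⟨m, hm, u, hu, h⟩ := cs_jd ι N c e heN
    obtain ⟨w, hw, -⟩ := exists_unit_of_pow_eq_one ι (Nat.pos_of_ne_zero (NeZero.ne N)) hu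
    rw [h]
    exact ⟨jtw L m w, by rw [coeffMap_jtw, hw]⟩

theorem exists_csL (c : XN N) : ∃ σ : modularFunctionFieldFullC L N →ₐ[L] LaurentSeries L,
    ∀ x, coeffMap ι (σ x) = cs ι N c x := by
  have hinj := Fermat.Agent.ModPoly.coeffMap_injective ι.injective
  let e : LaurentSeries L ≃+* (coeffMap ι).fieldRange :=
    RingEquiv.ofBijective (coeffMap ι).rangeRestrictField
      ⟨fun a b h => hinj (congrArg Subtype.val h), fun y => by
        obtain ⟨y, x, rfl⟩ := y
        exact ⟨x, rfl⟩⟩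
  let σ0 : modularFunctionFieldFullC L N →+* LaurentSeries L :=
    (e.symm : _ →+* LaurentSeries L).comp ((cs ι N c).codRestrict _ (cs_mem_range ι N c))
  have h0 : ∀ x, coeffMap ι (σ0 x) = cs ι N c x := by
    intro x
    have : e (σ0 x) = ⟨cs ι N c x, cs_mem_range ι N c x⟩ := e.apply_symm_apply _
    exact congrArg Subtype.val this
  refine ⟨{ σ0 with commutes' := fun a => ?_ }, h0⟩
  apply hinj
  refine (h0 _).trans ?_
  rw [cs_algebraMap, algebraMap_laurentSeries_eq_single, algebraMap_laurentSeries_eq_single,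
    coeffMap_single]

/-- The cusp expansion with coefficients in `L`. -/
def csL (c : XN N) : modularFunctionFieldFullC L N →ₐ[L] LaurentSeries L :=
  (exists_csL ι N c).choose

theorem coeffMap_csL (c : XN N) (x : modularFunctionFieldFullC L N) :
    coeffMap ι (csL ι N c x) = cs ι N c x := (exists_csL ι N c).choose_spec x

theorem csL_j (c : XN N) :
    csL ι N c ⟨jqModC L, jqModC_mem_full L N⟩ = qExpand L N (jqModC L) := by
  apply Fermat.Agent.ModPoly.coeffMap_injective ι.injective
  rw [coeffMap_csL, coeffMap_qExpand, coeffMap_jqModC]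
  have h : inFF N ⟨jqModC L, jqModC_mem_full L N⟩ = jF L N := by
    apply Subtype.ext
    rw [coe_jF, coe_inFF]
  rw [cs_apply, h, cuspSigma_jF]

theorem csL_jd (c : XN N) (e : ℕ) [he : NeZero e] (heN : e ∣ N) :
    ∃ (m : ℕ) (_ : NeZero m) (u : Lˣ), u ^ N = 1 ∧
      csL ι N c ⟨qExpand L e (jqModC L), jqModCd_mem_full L N heN⟩ = jtw L m u := by
  obtain ⟨m, hm, u, hu, h⟩ := cs_jd ι N c e heN
  obtain ⟨w, hw, hwN⟩ := exists_unit_of_pow_eq_one ι (Nat.pos_of_ne_zero (NeZero.ne N)) hu
  refine ⟨m, hm, w, hwN, ?_⟩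
  apply Fermat.Agent.ModPoly.coeffMap_injective ι.injective
  rw [coeffMap_csL, h, coeffMap_jtw, hw]

theorem csL_injective : Function.Injective (csL (L := L) ι N) := by
  intro c c' h
  apply cs_injective (L := L) ι N
  ext1 x
  rw [← coeffMap_csL, ← coeffMap_csL, h]

theorem exists_csL_T : ∃ w : Lˣ, w ^ N = 1 ∧ ∀ (c : XN N) (x : modularFunctionFieldFullC L N),
    csL ι N (ModularGroup.T • c) x = twist w (csL ι N c x) := by
  have h1 : (zetaN N ^ (-1 : ℤ)) ^ N = 1 := by
    rw [← zpow_natCast, ← zpow_mul, mul_comm, zpow_mul, zpow_natCast]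
    have := pow_orderOf_eq_one (zetaN N)
    rw [orderOf_zetaN] at this
    rw [this, one_zpow]
  obtain ⟨w, hw, hwN⟩ := exists_unit_of_pow_eq_one ι (Nat.pos_of_ne_zero (NeZero.ne N)) h1
  refine ⟨w, hwN, fun c x => ?_⟩
  apply Fermat.Agent.ModPoly.coeffMap_injective ι.injective
  rw [coeffMap_csL, coeffMap_twist, coeffMap_csL, cs_T, hw]

theorem csL_tame (c : XN N) (e : ℕ) (he : NeZero e) (heN : e ∣ N) :
    csL ι N c ⟨qExpand L e (jqModC L), jqModCd_mem_full L N heN⟩ ∈ Igusa.tame L := by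
  obtain ⟨m, hm, u, hu, h⟩ := csL_jd ι N c e heN
  rw [h]
  exact jtw_mem_tame m (Nat.pos_of_ne_zero (NeZero.ne N)) hu

end Fam

section Red

open Igusa

theorem exists_unit_lift {L : Type*} [Field L] (A : ValuationSubring L) {u : Lˣ} {n : ℕ}
    (hn : 0 < n) (hu : u ^ n = 1) :
    ∃ w : Aˣ, Units.map (A.subtype : A →* L) w = u ∧ w ^ n = 1 := by
  have h1 : A.valuation (u : L) ^ n = 1 := by
    rw [← map_pow, ← Units.val_pow_eq_pow_val, hu, Units.val_one, map_one]
  have h2 : A.valuation (u : L) = 1 := (pow_eq_one_iff_of_nonneg zero_le hn.ne').mp h1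
  have h3 : (u : L) ∈ A := (A.valuation_le_one_iff _).mp h2.le
  have h4 : IsUnit (⟨u, h3⟩ : A) := (A.valuation_eq_one_iff _).mpr h2
  obtain ⟨w, hw⟩ := h4
  have h5 : Units.map (A.subtype : A →* L) w = u := by
    apply Units.ext
    show ((w : A) : L) = u
    rw [hw]
  refine ⟨w, h5, ?_⟩
  apply Units.map_injective (f := (A.subtype : A →* L)) Subtype.val_injective
  rw [map_pow, h5, hu, map_one]

variable {L : Type*} [Field L] [Algebra ℚ L] [IsAlgClosed L] (ι : L →+* ℂ)
  (A : ValuationSubring L) {κ : Type*} [Field κ] (π : A →+* κ) [IsLocalHom π]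
  (N : ℕ) [NeZero N] (hπ : Function.Surjective π)
  {d : ℕ} (hpos : 0 < d)
  (hd : IntermediateField.relfinrank (IntermediateField.adjoin L {jqModC L})
    (modularFunctionFieldFullC L N) = d)
  (hd₁ : IntermediateField.relfinrank (IntermediateField.adjoin κ {jqModC κ})
    (modularFunctionFieldFullC κ N) = d)

/-- The reduction of the cusp expansions. -/
def csBar (c : XN N) : modularFunctionFieldFullC κ N →+* LaurentSeries κ :=
  (exists_resEmb A π N hπ hpos hd hd₁ (csL ι N c) N (csL_j ι N c) (csL_tame ι N c)).choose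

theorem csBar_spec (c : XN N) (x : gaussVal A π (isTameField_full (L := L) N)) :
    ∃ h : csL ι N c (x : modularFunctionFieldFullC L N) ∈ gaussRing A π,
      csBar ι A π N hπ hpos hd hd₁ c (fullRes A π N hπ hpos hd hd₁ x) =
        gaussRes A π ⟨_, h⟩ :=
  (exists_resEmb A π N hπ hpos hd hd₁ (csL ι N c) N (csL_j ι N c) (csL_tame ι N c)).choose_spec x

theorem csBar_algebraMap (c : XN N) (b : κ) :
    csBar ι A π N hπ hpos hd hd₁ c (algebraMap κ _ b) = algebraMap κ (LaurentSeries κ) b := by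
  obtain ⟨a, rfl⟩ := hπ b
  have hx : algebraMap L (modularFunctionFieldFullC L N) (a : L) ∈
      gaussVal A π (isTameField_full (L := L) N) := by
    rw [mem_gaussVal_iff]
    exact algebraMap_mem_gaussRing A π a
  obtain ⟨h, h1⟩ := csBar_spec ι A π N hπ hpos hd hd₁ c ⟨_, hx⟩
  have h2 : fullRes A π N hπ hpos hd hd₁ ⟨_, hx⟩ =
      algebraMap κ (modularFunctionFieldFullC κ N) (π a) :=
    Subtype.ext (gaussRes_algebraMap A π a rfl)
  rw [h2] at h1
  rw [h1]
  exact gaussRes_algebraMap A π a ((csL ι N c).commutes _)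

theorem csBar_jd (c : XN N) (e : ℕ) [he : NeZero e] (heN : e ∣ N) {m : ℕ} [NeZero m] {u : Lˣ}
    {w : Aˣ} (hw : Units.map (A.subtype : A →* L) w = u)
    (h : csL ι N c ⟨qExpand L e (jqModC L), jqModCd_mem_full L N heN⟩ = jtw L m u) :
    csBar ι A π N hπ hpos hd hd₁ c ⟨qExpand κ e (jqModC κ), jqModCd_mem_full κ N heN⟩ =
      jtw κ m (Units.map (π : A →* κ) w) := by
  have h0 : qExpand L e (jqModC L) = coeffMap A.subtype (qExpand A e (jqModC A)) := by
    rw [coeffMap_qExpand, coeffMap_jqModC]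
  have hx : (⟨qExpand L e (jqModC L), jqModCd_mem_full L N heN⟩ :
      modularFunctionFieldFullC L N) ∈ gaussVal A π (isTameField_full (L := L) N) := by
    rw [mem_gaussVal_iff]
    show qExpand L e (jqModC L) ∈ gaussRing A π
    rw [h0]
    exact emb_mem_gaussRing _
  obtain ⟨h', h1⟩ := csBar_spec ι A π N hπ hpos hd hd₁ c ⟨_, hx⟩
  have h2 : fullRes A π N hπ hpos hd hd₁ ⟨_, hx⟩ =
      ⟨qExpand κ e (jqModC κ), jqModCd_mem_full κ N heN⟩ := by
    apply Subtype.ext
    show gaussRes A π ⟨qExpand L e (jqModC L), hx⟩ = _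
    rw [gaussRes_congr (y := ⟨coeffMap A.subtype (qExpand A e (jqModC A)),
      emb_mem_gaussRing _⟩) h0, gaussRes_emb, coeffMap_qExpand, coeffMap_jqModC]
  rw [h2] at h1
  rw [h1]
  have h3 : csL ι N c ⟨qExpand L e (jqModC L), jqModCd_mem_full L N heN⟩ =
      coeffMap A.subtype (jtw A m w) := by
    rw [h, coeffMap_jtw, hw]
  rw [gaussRes_congr (y := ⟨coeffMap A.subtype (jtw A m w), emb_mem_gaussRing _⟩) h3,
    gaussRes_emb, coeffMap_jtw]

theorem csBar_j (c : XN N) :
    csBar ι A π N hπ hpos hd hd₁ c ⟨jqModC κ, jqModC_mem_full κ N⟩ =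
      qExpand κ N (jqModC κ) := by
  have h0 : jqModC L = coeffMap A.subtype (jqModC A) := (coeffMap_jqModC _).symm
  have hx : (⟨jqModC L, jqModC_mem_full L N⟩ :
      modularFunctionFieldFullC L N) ∈ gaussVal A π (isTameField_full (L := L) N) := by
    rw [mem_gaussVal_iff]
    show jqModC L ∈ gaussRing A π
    rw [h0]
    exact emb_mem_gaussRing _
  obtain ⟨h', h1⟩ := csBar_spec ι A π N hπ hpos hd hd₁ c ⟨_, hx⟩
  have h2 : fullRes A π N hπ hpos hd hd₁ ⟨_, hx⟩ = ⟨jqModC κ, jqModC_mem_full κ N⟩ := by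
    apply Subtype.ext
    show gaussRes A π ⟨jqModC L, hx⟩ = _
    rw [gaussRes_congr (y := ⟨coeffMap A.subtype (jqModC A),
      emb_mem_gaussRing _⟩) h0, gaussRes_emb, coeffMap_jqModC]
  rw [h2] at h1
  rw [h1]
  have h3 : csL ι N c ⟨jqModC L, jqModC_mem_full L N⟩ =
      coeffMap A.subtype (qExpand A N (jqModC A)) := by
    rw [csL_j, coeffMap_qExpand, coeffMap_jqModC]
  rw [gaussRes_congr (y := ⟨coeffMap A.subtype (qExpand A N (jqModC A)), emb_mem_gaussRing _⟩) h3,
    gaussRes_emb, coeffMap_qExpand, coeffMap_jqModC]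

omit [NeZero N] [IsLocalHom π] in
/-- reduction of roots of unity of order prime to the residue characteristic is injective -/
theorem unit_eq_of_map_eq (hN : (N : κ) ≠ 0) {w w' : Aˣ} (hw : w ^ N = 1) (hw' : w' ^ N = 1)
    (h : Units.map (π : A →* κ) w = Units.map (π : A →* κ) w') : w = w' := by
  have key : ∀ v : Aˣ, v ^ N = 1 → Units.map (π : A →* κ) v = 1 → v = 1 := by
    intro v hv h1
    have h2 : π (v : A) = 1 := congrArg Units.val h1
    by_contra hne
    have h3 : (v : A) - 1 ≠ 0 := by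
      intro h0
      exact hne (Units.ext (sub_eq_zero.mp h0))
    have h4 : (∑ i ∈ Finset.range N, (v : A) ^ i) * ((v : A) - 1) = 0 := by
      rw [geom_sum_mul, ← Units.val_pow_eq_pow_val, hv, Units.val_one, sub_self]
    have h5 : ∑ i ∈ Finset.range N, (v : A) ^ i = 0 := (mul_eq_zero.mp h4).resolve_right h3
    apply hN
    have h6 := congrArg π h5
    rw [map_sum, map_zero] at h6
    simp only [map_pow, h2, one_pow, Finset.sum_const, Finset.card_range, nsmul_eq_mul,
      mul_one] at h6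
    exact h6
  have h1 := key (w * w'⁻¹) (by rw [mul_pow, hw, inv_pow, hw', inv_one, mul_one]) (by
    rw [map_mul, map_inv, h, mul_inv_cancel])
  exact mul_inv_eq_one.mp h1

theorem csBar_injective (hN : (N : κ) ≠ 0) :
    Function.Injective (csBar ι A π N hπ hpos hd hd₁) := by
  intro c c' h
  have hN0 : 0 < N := Nat.pos_of_ne_zero (NeZero.ne N)
  apply csL_injective (L := L) ι N
  have h1 : (csL ι N c : modularFunctionFieldFullC L N →+* LaurentSeries L) = csL ι N c' := by
    apply full_hom_ext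
    · intro a
      exact ((csL ι N c).commutes a).trans ((csL ι N c').commutes a).symm
    · intro e he heN
      obtain ⟨m, hm, u, hu, h1⟩ := csL_jd ι N c e heN
      obtain ⟨m', hm', u', hu', h1'⟩ := csL_jd ι N c' e heN
      obtain ⟨w, hw, hwN⟩ := exists_unit_lift A hN0 hu
      obtain ⟨w', hw', hwN'⟩ := exists_unit_lift A hN0 hu'
      have h2 := csBar_jd ι A π N hπ hpos hd hd₁ c e heN hw h1
      have h2' := csBar_jd ι A π N hπ hpos hd hd₁ c' e heN hw' h1'
      rw [h, h2'] at h2
      obtain ⟨h3, h4⟩ := jtw_inj h2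
      subst h3
      have h5 := unit_eq_of_map_eq A π N hN hwN' hwN h4
      show csL ι N c _ = csL ι N c' _
      rw [h1, h1', ← hw, ← hw', h5]
  exact AlgHom.ext fun x => RingHom.congr_fun h1 x

theorem exists_csBar_T : ∃ w : κˣ, ∀ (c : XN N) (x : modularFunctionFieldFullC κ N),
    csBar ι A π N hπ hpos hd hd₁ (ModularGroup.T • c) x =
      twist w (csBar ι A π N hπ hpos hd hd₁ c x) := by
  have hN0 : 0 < N := Nat.pos_of_ne_zero (NeZero.ne N)
  obtain ⟨z, hz, hT⟩ := exists_csL_T (L := L) ι N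
  obtain ⟨w, hw, hwN⟩ := exists_unit_lift A hN0 hz
  refine ⟨Units.map (π : A →* κ) w, fun c x => ?_⟩
  have h1 : csBar ι A π N hπ hpos hd hd₁ (ModularGroup.T • c) =
      (twist (Units.map (π : A →* κ) w)).comp (csBar ι A π N hπ hpos hd hd₁ c) := by
    apply full_hom_ext
    · intro b
      rw [csBar_algebraMap, RingHom.comp_apply, csBar_algebraMap, twist_algebraMap]
    · intro e he heN
      obtain ⟨m, hm, u, hu, h1⟩ := csL_jd ι N c e heN
      obtain ⟨v, hv, hvN⟩ := exists_unit_lift A hN0 hu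
      have h2 : csL ι N (ModularGroup.T • c)
          ⟨qExpand L e (jqModC L), jqModCd_mem_full L N heN⟩ = jtw L m (z ^ m * u) := by
        rw [hT, h1, jtw, twist_qExpand, twist_twist]
        rfl
      rw [RingHom.comp_apply, csBar_jd ι A π N hπ hpos hd hd₁ c e heN hv h1,
        csBar_jd ι A π N hπ hpos hd hd₁ (ModularGroup.T • c) e heN (w := w ^ m * v) (by
          rw [map_mul, map_pow, hw, hv]) h2, jtw, jtw, twist_qExpand, twist_twist, map_mul,
        map_pow]
  rw [h1]
  rfl

end Red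

end Fermat.Agent.Cusps
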