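import Fermat.Agent.RH.Main
import Fermat.Agent.PushPull.Fundamental

/-!
# Lower bound for the genus of a cover of a rational function field
-/

set_option autoImplicit false

noncomputable section

open AlgebraicCurve IntermediateField Module
open Fermat.Agent.FunField Fermat.Agent.FunField.PlaceLemmas Fermat.Agent.RH Fermat.Agent.PushPull

namespace Fermat.Agent.Cusps

section Rational

variable {K E : Type*} [Field K] [Field E] [Algebra K E] [IsFF K E] [IsAlgClosed K]

theorem deg_eq_one' (v : Place K E) : v.deg = 1 := by
  have hfin : Module.Finite K v.ResidueField := inferInstance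
  exact v.deg_eq_one_of_isAlgClosed_of_finite

/-- A function field of genus `0` is rational, generated by a function with a given single pole. -/
theorem exists_hauptmodul (hg : genusFF K E = 0) (P : Place K E) :
    ∃ h : E, Transcendental K h ∧ P.ord h = -1 ∧ (∀ Q : Place K E, Q ≠ P → 0 ≤ Q.ord h) ∧
      finrank K⟮h⟯ E = 1 := by
  classical
  set D : Divisor K E := Finsupp.single P 1 with hD
  have hdeg : Divisor.degree D = 1 := by
    rw [hD, Divisor.degree_single, deg_eq_one', Nat.cast_one, mul_one]
  have hRR := riemann_roch D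
  rw [hdeg, hg] at hRR
  have h2 : 2 ≤ finrank K (riemannRochSpace D) := by
    have : (0 : ℤ) ≤ finrank K (H1 D) := Int.natCast_nonneg _
    have h3 : (2 : ℤ) ≤ finrank K (riemannRochSpace D) := by push_cast at hRR; linarith
    exact_mod_cast h3
  have hnot : ¬ riemannRochSpace D ≤ riemannRochSpace (0 : Divisor K E) := by
    intro hle
    have := Submodule.finrank_mono hle
    rw [finrank_rr_zero] at this
    omega
  obtain ⟨h, hmem, hnmem⟩ := SetLike.not_le_iff_exists.mp hnot
  have hh0 : h ≠ 0 := by
    rintro rfl
    exact hnmem (Submodule.zero_mem _)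
  have hge : ∀ Q : Place K E, -(D Q) ≤ Q.ord h := fun Q => by
    have := mem_rr.mp hmem Q
    rwa [mem_geSub_of_ne hh0] at this
  have hQ : ∀ Q : Place K E, Q ≠ P → 0 ≤ Q.ord h := by
    intro Q hQP
    have := hge Q
    rwa [hD, Finsupp.single_apply, if_neg (Ne.symm hQP), neg_zero] at this
  have hP : P.ord h = -1 := by
    have h1 := hge P
    rw [hD, Finsupp.single_eq_same] at h1
    by_contra hne
    apply hnmem
    rw [mem_rr]
    intro Q
    rw [mem_geSub_of_ne hh0, Finsupp.coe_zero, Pi.zero_apply, neg_zero]
    by_cases hQP : Q = P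
    · rw [hQP]; omega
    · exact hQ Q hQP
  have htr : Transcendental K h := transcendental_of_ord_ne_zero P (by rw [hP]; norm_num)
  refine ⟨h, htr, hP, hQ, ?_⟩
  have hpole : (poleDiv h : Divisor K E) = D := by
    ext Q
    rw [poleDiv_apply, hD, Finsupp.single_apply]
    by_cases hQP : P = Q
    · rw [if_pos hQP, ← hQP, hP]; norm_num
    · rw [if_neg hQP, max_eq_right (by have := hQ Q (Ne.symm hQP); omega)]
  have := degree_poleDiv (K := K) htr
  rw [hpole, hdeg] at this
  exact_mod_cast this.symm

end Rational

section Ineq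

variable {K E M : Type*} [Field K] [Field E] [Field M] [Algebra K E] [Algebra K M] [Algebra E M]
  [IsScalarTower K E M] [IsAlgClosed K] [IsFF K E] [IsFF K M] [FiniteDimensional E M]

omit [IsAlgClosed K] [IsFF K E] [IsFF K M] [FiniteDimensional E M] in
theorem isSeparable_of_rational [hsep : Algebra.IsSeparable E M] {h : E}
    (h1 : finrank K⟮h⟯ E = 1) : Algebra.IsSeparable K⟮algebraMap E M h⟯ M := by
  have htop : K⟮h⟯ = ⊤ := IntermediateField.finrank_eq_one_iff_eq_top.mp h1
  have hmap : (K⟮h⟯).map (IsScalarTower.toAlgHom K E M) = K⟮algebraMap E M h⟯ := by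
    rw [adjoin_map, Set.image_singleton]; rfl
  have hmem : ∀ x : E, algebraMap E M x ∈ K⟮algebraMap E M h⟯ := by
    intro x
    rw [← hmap, htop]
    exact ⟨x, mem_top, rfl⟩
  let f : E →+* K⟮algebraMap E M h⟯ := (algebraMap E M).codRestrict _ hmem
  have hf : Function.Bijective f := by
    refine ⟨f.injective, ?_⟩
    rintro ⟨y, hy⟩
    rw [← hmap] at hy
    obtain ⟨x, -, hx⟩ := hy
    exact ⟨x, Subtype.ext hx⟩
  exact Algebra.IsSeparable.of_equiv_equiv (RingEquiv.ofBijective f hf) (RingEquiv.refl M) (by
    ext x; rfl)

/-- The ramification index over `K(h)`, `E = K(h)`. -/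
theorem ram_eq {h : E} (htr : Transcendental K h) (h1 : finrank K⟮h⟯ E = 1) (Q : Place K M) :
    ram (algebraMap E M h) Q = Q.ramificationIndex E := by
  have hepos : (0 : ℤ) < Q.ramificationIndex E := by exact_mod_cast Q.ramificationIndex_pos (F := E)
  set P := Q.restrict E with hP
  rcases lt_or_ge (P.ord h) 0 with hneg | hnn
  · have h2 : P.ord h = -1 := by
      have h3 := degree_poleDiv (K := K) htr
      rw [h1] at h3
      have h4 : Finsupp.single P (-P.ord h) ≤ (poleDiv h : Divisor K E) := by
        classical
        intro R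
        rw [Finsupp.single_apply, poleDiv_apply]
        split_ifs with hR
        · rw [← hR]; exact le_max_left _ _
        · exact le_max_right _ _
      have h5 := degree_mono h4
      rw [h3, Divisor.degree_single, deg_eq_one', Nat.cast_one, mul_one] at h5
      push_cast at h5
      omega
    have h3 : Q.ord (algebraMap E M h) = -(Q.ramificationIndex E : ℤ) := by
      rw [Q.ord_restrict, ← hP, h2]; ring
    rw [ram_of_neg (by rw [h3]; omega), h3, neg_neg]
  · obtain ⟨a, ha⟩ := exists_value hnn htr
    have h2 : P.ord (h - algebraMap K E a) = 1 := by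
      have h3 := degree_zeroDiv (K := K) (transcendental_sub htr a)
      rw [adjoin_sub_eq, h1] at h3
      have h4 : Finsupp.single P (P.ord (h - algebraMap K E a)) ≤
          (zeroDiv (h - algebraMap K E a) : Divisor K E) := by
        classical
        intro R
        rw [Finsupp.single_apply, zeroDiv_apply]
        split_ifs with hR
        · rw [← hR]; exact le_max_left _ _
        · exact le_max_right _ _
      have h5 := degree_mono h4
      rw [h3, Divisor.degree_single, deg_eq_one', Nat.cast_one, mul_one] at h5
      push_cast at h5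
      omega
    have h3 : Q.ord (algebraMap E M h - algebraMap K M a) = Q.ramificationIndex E := by
      rw [IsScalarTower.algebraMap_apply K E M, ← map_sub, Q.ord_restrict, ← hP, h2, mul_one]
    rw [ram_of_pos (a := a) (by rw [h3]; exact hepos), h3]

/-- **Genus inequality** for a separable cover `M` of a genus `0` field `E`: if `S` is a nonempty
finite set of places of `E`, and `T` contains all places of `M` above `S`,
then `[M : E] (#S - 2) - #T ≤ 2 g(M) - 2`. -/
theorem cover_genus_ineq [Algebra.IsSeparable E M] (hg : genusFF K E = 0) (S : Finset (Place K E))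
    (hS : S.Nonempty) (T : Finset (Place K M)) (hT : ∀ Q : Place K M, Q.restrict E ∈ S → Q ∈ T) :
    (finrank E M : ℤ) * (S.card - 2) - T.card ≤ 2 * (genusFF K M : ℤ) - 2 := by
  classical
  obtain ⟨P, hP⟩ := hS
  obtain ⟨h, htr, -, -, h1⟩ := exists_hauptmodul (K := K) hg P
  have hsep := isSeparable_of_rational (K := K) (M := M) h1
  have htr' : Transcendental K (algebraMap E M h) := transcendental_algebraMap htr
  set T' : Finset (Place K M) := S.biUnion (fun P => P.fiber M) with hT'
  have hsub : T' ⊆ T := by
    intro Q hQ
    rw [hT', Finset.mem_biUnion] at hQ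
    obtain ⟨P, hP, hQP⟩ := hQ
    rw [Place.mem_fiber] at hQP
    exact hT Q (hQP ▸ hP)
  have hdisj : (S : Set (Place K E)).PairwiseDisjoint (fun P => P.fiber M) := by
    intro P _ P' _ hne
    rw [Function.onFun, Finset.disjoint_left]
    intro Q hQ hQ'
    rw [Place.mem_fiber] at hQ hQ'
    exact hne (hQ.symm.trans hQ')
  have key := riemann_hurwitz_le (K := K) (algebraMap E M h) htr' T'
  rw [finrank_adjoin_algebraMap, h1, one_mul, Finset.sum_sub_distrib, Finset.sum_const,
    nsmul_eq_mul, mul_one] at key
  have hsum : ∑ Q ∈ T', ram (algebraMap E M h) Q = (finrank E M : ℤ) * S.card := by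
    rw [hT', Finset.sum_biUnion hdisj]
    have : ∀ P ∈ S, ∑ Q ∈ P.fiber M, ram (algebraMap E M h) Q = (finrank E M : ℤ) := by
      intro P _
      have h2 := (fundamentalIdentity K E M).sum_ramificationIndex_mul_deg P
      rw [deg_eq_one', Nat.cast_one, mul_one] at h2
      rw [← h2]
      refine Finset.sum_congr rfl fun Q _ => ?_
      rw [ram_eq htr h1, deg_eq_one', Nat.cast_one, mul_one]
    rw [Finset.sum_congr rfl this, Finset.sum_const, nsmul_eq_mul, mul_comm]
  rw [hsum] at key
  have h3 : (T'.card : ℤ) ≤ T.card := by exact_mod_cast Finset.card_le_card hsub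
  linarith

end Ineq

end Fermat.Agent.Cusps
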