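import Fermat.Agent.ModDeg.Separable
import Fermat.Agent.ModDeg.DegreeClosed
import Fermat.Agent.HeckeRed.FF
import Fermat.Agent.Igusa.DeuringData
import Fermat.Agent.Deuring.Tower

/-!
# The extension of function fields between two levels
-/

set_option autoImplicit false

noncomputable section

open HahnSeries ModularCurve AlgebraicCurve IntermediateField Module

namespace Fermat.Agent.Cusps

open Fermat.Agent.ModDeg Fermat.Agent.FunField

section Level

variable (K : Type*) [Field K] {N M : ℕ} [NeZero N] [NeZero M] (h : N ∣ M)

/-- the inclusion `F_N ⊂ F_M`, `N ∣ M`. -/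
def levelMap : modularFunctionFieldFullC K N →+* modularFunctionFieldFullC K M where
  toFun x := ⟨x, full_degeneracyC_le K h x.2⟩
  map_one' := Subtype.ext rfl
  map_mul' _ _ := Subtype.ext rfl
  map_zero' := Subtype.ext rfl
  map_add' _ _ := Subtype.ext rfl

theorem levelMap_apply (x : modularFunctionFieldFullC K N) :
    levelMap K h x = ⟨x, full_degeneracyC_le K h x.2⟩ := rfl

theorem coe_levelMap (x : modularFunctionFieldFullC K N) :
    ((levelMap K h x : modularFunctionFieldFullC K M) : LaurentSeries K) = x := by
  rw [levelMap_apply]

/-- `F_M` as an algebra over `F_N`, `N ∣ M`. -/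
@[reducible] def levelAlg :
    Algebra (modularFunctionFieldFullC K N) (modularFunctionFieldFullC K M) :=
  (levelMap K h).toAlgebra

theorem algebraMap_level :
    letI := levelAlg K h
    (algebraMap (modularFunctionFieldFullC K N) (modularFunctionFieldFullC K M)) =
      levelMap K h := rfl

theorem coe_algebraMap_fullC (N : ℕ) (a : K) :
    ((algebraMap K (modularFunctionFieldFullC K N) a : modularFunctionFieldFullC K N) :
      LaurentSeries K) = algebraMap K (LaurentSeries K) a := rfl

theorem levelMap_algebraMap (a : K) :
    levelMap K h (algebraMap K _ a) = algebraMap K _ a := by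
  apply Subtype.ext
  rw [coe_levelMap, coe_algebraMap_fullC, coe_algebraMap_fullC]

theorem levelAlg_tower :
    letI := levelAlg K h
    IsScalarTower K (modularFunctionFieldFullC K N) (modularFunctionFieldFullC K M) := by
  letI := levelAlg K h
  refine IsScalarTower.of_algebraMap_eq fun a => ?_
  rw [algebraMap_level, levelMap_algebraMap]

theorem levelAlg_finrank :
    letI := levelAlg K h
    finrank (modularFunctionFieldFullC K N) (modularFunctionFieldFullC K M) =
      relfinrank (modularFunctionFieldFullC K N) (modularFunctionFieldFullC K M) := by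
  letI := levelAlg K h
  rw [IntermediateField.relfinrank_eq_finrank_of_le (full_degeneracyC_le K h)]
  refine Algebra.finrank_eq_of_equiv_equiv (RingEquiv.refl _)
    ({ toFun := fun x => ⟨x.1, x.2⟩, invFun := fun x => ⟨x.1, x.2⟩, left_inv := fun _ => rfl,
       right_inv := fun _ => rfl, map_mul' := fun _ _ => rfl, map_add' := fun _ _ => rfl } :
      modularFunctionFieldFullC K M ≃+*
        IntermediateField.extendScalars (full_degeneracyC_le K h)) ?_
  ext x
  rfl

/-- the inclusion of `K(j)` -/
def jMap : K⟮jqModC K⟯ →+* modularFunctionFieldFullC K N where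
  toFun x := ⟨x, adjoin_jq_le_full N x.2⟩
  map_one' := Subtype.ext rfl
  map_mul' _ _ := Subtype.ext rfl
  map_zero' := Subtype.ext rfl
  map_add' _ _ := Subtype.ext rfl

theorem jMap_apply (x : K⟮jqModC K⟯) :
    (jMap K x : modularFunctionFieldFullC K N) = ⟨x, adjoin_jq_le_full N x.2⟩ := rfl

theorem coe_jMap (x : K⟮jqModC K⟯) :
    ((jMap K x : modularFunctionFieldFullC K N) : LaurentSeries K) = x := by
  rw [jMap_apply]

/-- the inclusion `F_M ⊂ K((q))` as an `F_N`-algebra homomorphism -/
def valLevel :
    letI := levelAlg K h
    modularFunctionFieldFullC K M →ₐ[modularFunctionFieldFullC K N] LaurentSeries K :=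
  letI := levelAlg K h
  { toFun := fun x => x
    map_one' := rfl
    map_mul' := fun _ _ => rfl
    map_zero' := rfl
    map_add' := fun _ _ => rfl
    commutes' := fun x => by
      rw [algebraMap_level, IntermediateField.algebraMap_apply]
      exact coe_levelMap K h x }

theorem levelAlg_separable (hM : (M : K) ≠ 0) :
    letI := levelAlg K h
    Algebra.IsSeparable (modularFunctionFieldFullC K N) (modularFunctionFieldFullC K M) := by
  letI := levelAlg K h
  letI : Algebra K⟮jqModC K⟯ (modularFunctionFieldFullC K N) := (jMap K).toAlgebra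
  have : IsScalarTower K⟮jqModC K⟯ (modularFunctionFieldFullC K N) (LaurentSeries K) := by
    refine IsScalarTower.of_algebraMap_eq fun x => ?_
    rw [IntermediateField.algebraMap_apply, IntermediateField.algebraMap_apply]
    exact (coe_jMap K (N := N) x).symm
  refine ⟨fun x => ?_⟩
  have h1 : IsSeparable K⟮jqModC K⟯ (x : LaurentSeries K) := isSeparable_full (K := K) M hM x.2
  have h2 : IsSeparable (modularFunctionFieldFullC K N) (x : LaurentSeries K) :=
    h1.tower_top (modularFunctionFieldFullC K N)
  exact IsSeparable.of_algHom (valLevel K h) h2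

end Level

section LevelClosed

variable (K : Type*) [Field K] [IsAlgClosed K] {N M : ℕ} [NeZero N] [NeZero M] (h : N ∣ M)

include h in
theorem relfinrank_level_mul (hM : (M : K) ≠ 0) :
    relfinrank (modularFunctionFieldFullC K N) (modularFunctionFieldFullC K M) * dedekindPsi N =
      dedekindPsi M := by
  have hN : (N : K) ≠ 0 := by
    intro h0
    obtain ⟨k, rfl⟩ := h
    rw [Nat.cast_mul, h0, zero_mul] at hM
    exact hM rfl
  have h1 := IntermediateField.relfinrank_mul_relfinrank (adjoin_jq_le_full (K := K) N)
    (full_degeneracyC_le K h)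
  rw [relfinrank_full_of_isAlgClosed N hN, relfinrank_full_of_isAlgClosed M hM] at h1
  rw [← h1, mul_comm]

end LevelClosed

end Fermat.Agent.Cusps
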