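import Fermat.Agent.Cusps.CardCusps
import Fermat.Agent.Cusps.Level
import Fermat.Agent.Cusps.LevelPP
import Fermat.Agent.Cusps.GenusIneq
import Fermat.Agent.Cusps.CharZero
import Fermat.Agent.TorsInj.Nonspecial
import Fermat.Agent.Deuring.GenusDescent
import Fermat.Agent.PushPull.NormFormula

/-!
# Equality of the genera of `X₀(N)` in characteristic `0` and `ℓ ∤ N`
-/

set_option autoImplicit false

noncomputable section

open HahnSeries ModularCurve AlgebraicCurve IntermediateField Module

namespace Fermat.Agent.Cusps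

open Fermat.Agent.ModDeg Fermat.Agent.FunField Fermat.Agent.Igusa Fermat.Agent.Deuring

section Gen

theorem psi_pos (N : ℕ) [NeZero N] : 0 < dedekindPsi N := by
  rw [← Fermat.Agent.Gamma0Comb.card_X N]
  have : Finite (X0Places.XN N) := inferInstance
  have : Nonempty (X0Places.XN N) := inferInstance
  exact Nat.card_pos (α := X0Places.XN N)

/-- places with `ord j < 0`, as a finset -/
theorem exists_finset_cusps (K : Type*) [Field K] [IsAlgClosed K] (N : ℕ) [NeZero N] :
    ∃ T : Finset (Place K (modularFunctionFieldFullC K N)),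
      (∀ Q, Q ∈ T ↔ Q.ord (HeckeRed.jF K N) < 0) ∧
      T.card = Nat.card {P : Place K (modularFunctionFieldFullC K N) //
        P.ord (HeckeRed.jF K N) < 0} := by
  classical
  have hmem : ∀ Q : Place K (modularFunctionFieldFullC K N),
      Q ∈ (poleDiv (HeckeRed.jF K N) : Divisor K (modularFunctionFieldFullC K N)).support ↔
        Q.ord (HeckeRed.jF K N) < 0 := by
    intro Q
    rw [Finsupp.mem_support_iff, poleDiv_apply]
    constructor
    · intro h
      by_contra hcon
      exact h (max_eq_right (by omega))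
    · intro h
      rw [max_eq_left (by omega)]
      omega
  refine ⟨_, hmem, ?_⟩
  rw [← Fintype.card_coe, ← Nat.card_eq_fintype_card]
  exact Nat.card_congr (Equiv.subtypeEquivRight fun Q => hmem Q)

end Gen

section Ineq

variable (K : Type*) [Field K] [IsAlgClosed K]

/-- the genus inequality in any characteristic `≠ p`, `p = 2, 3`, for levels divisible by `p²`. -/
theorem genus_ge_pp {p : ℕ} [hp : Fact p.Prime] (h23 : p ≤ 3) {M : ℕ} [NeZero M]
    (hM : (M : K) ≠ 0) (hpM : p * p ∣ M)
    (hg : genusFF K (modularFunctionFieldFullC K (p * p)) = 0) :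
    (dedekindPsi M : ℤ) - 6 * Nat.card {P : Place K (modularFunctionFieldFullC K M) //
        P.ord (HeckeRed.jF K M) < 0} ≤
      6 * (2 * (genusFF K (modularFunctionFieldFullC K M) : ℤ) - 2) := by
  classical
  have hpK : (p : K) ≠ 0 := by
    intro h0
    obtain ⟨k, rfl⟩ := hpM
    rw [Nat.cast_mul, Nat.cast_mul, h0, zero_mul, zero_mul] at hM
    exact hM rfl
  letI := levelAlg K hpM
  have := levelAlg_tower K hpM
  have hsep := levelAlg_separable K hpM hM
  have hn := levelAlg_finrank K hpM
  have hmul := relfinrank_level_mul K hpM hM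
  rw [← hn] at hmul
  have hpos : 0 < finrank (modularFunctionFieldFullC K (p * p)) (modularFunctionFieldFullC K M) := by
    rcases Nat.eq_zero_or_pos (finrank (modularFunctionFieldFullC K (p * p))
      (modularFunctionFieldFullC K M)) with h0 | h0
    · rw [h0, zero_mul] at hmul
      exact absurd hmul.symm (psi_pos M).ne'
    · exact h0
  have hfd : FiniteDimensional (modularFunctionFieldFullC K (p * p))
    (modularFunctionFieldFullC K M) := FiniteDimensional.of_finrank_pos hpos
  obtain ⟨S, hS, hScard⟩ := exists_finset_cusps K (p * p)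
  obtain ⟨T, hT, hTcard⟩ := exists_finset_cusps K M
  have hSge : p + 1 ≤ S.card := by
    rw [hScard]
    exact card_cusps_pp_ge hpK
  have hSne : S.Nonempty := Finset.card_pos.mp (by omega)
  have hjmap : algebraMap (modularFunctionFieldFullC K (p * p)) (modularFunctionFieldFullC K M)
      (HeckeRed.jF K (p * p)) = HeckeRed.jF K M := by
    rw [algebraMap_level]
    exact Subtype.ext (coe_levelMap K hpM _)
  have key := cover_genus_ineq (K := K) (E := modularFunctionFieldFullC K (p * p))
    (M := modularFunctionFieldFullC K M) hg S hSne T (by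
      intro Q hQ
      rw [hS] at hQ
      rw [hT, ← hjmap, Q.ord_restrict]
      have hepos : (0 : ℤ) < Q.ramificationIndex (modularFunctionFieldFullC K (p * p)) := by
        exact_mod_cast Q.ramificationIndex_pos (F := modularFunctionFieldFullC K (p * p))
      exact mul_neg_of_pos_of_neg hepos hQ)
  set n := finrank (modularFunctionFieldFullC K (p * p)) (modularFunctionFieldFullC K M) with hndef
  have hpsi : dedekindPsi (p * p) = p * (p + 1) := by
    have h1 := relfinrank_jj_pp (K := K) hpK
    rwa [relfinrank_full_of_isAlgClosed (p * p) (by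
      rw [Nat.cast_mul]; exact mul_ne_zero hpK hpK)] at h1
  rw [hpsi] at hmul
  have h2 := hp.out.two_le
  have h3 : (n : ℤ) * (p * (p + 1)) = dedekindPsi M := by exact_mod_cast hmul
  have h4 : (p : ℤ) + 1 ≤ S.card := by exact_mod_cast hSge
  have h5 : (n : ℤ) * (p - 1) ≤ n * (S.card - 2) :=
    mul_le_mul_of_nonneg_left (by linarith) (Int.natCast_nonneg n)
  have h6 : (dedekindPsi M : ℤ) ≤ 6 * (n * (p - 1)) := by
    rw [← h3]
    have h7 : (p : ℤ) * (p + 1) ≤ 6 * (p - 1) := by
      have h8 : (2 : ℤ) ≤ p := by exact_mod_cast h2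
      have h9 : (p : ℤ) ≤ 3 := by exact_mod_cast h23
      nlinarith
    calc (n : ℤ) * (p * (p + 1)) ≤ n * (6 * (p - 1)) :=
          mul_le_mul_of_nonneg_left h7 (Int.natCast_nonneg n)
      _ = _ := by ring
  rw [← hTcard]
  linarith

end Ineq

section Main

variable {L : Type*} [Field L] [Algebra ℚ L] [IsAlgClosed L] (ι : L →+* ℂ)
  (A : ValuationSubring L) {κ : Type*} [Field κ] [IsAlgClosed κ] (π : A →+* κ) [IsLocalHom π]
  (hπ : Function.Surjective π)

/-- the reduction data at level `N`. -/
def redData (N : ℕ) [NeZero N] (hL : (N : L) ≠ 0) (hN : (N : κ) ≠ 0) :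
    Deuring.Data L κ (modularFunctionFieldFullC L N) (modularFunctionFieldFullC κ N) :=
  fullData A π N hπ (psi_pos N) (relfinrank_full_of_isAlgClosed N hL)
    (relfinrank_full_of_isAlgClosed N hN)

include hπ in
/-- Deuring's inequality for the modular function fields -/
theorem genusFF_le (N : ℕ) [NeZero N] (hL : (N : L) ≠ 0) (hN : (N : κ) ≠ 0) :
    genusFF κ (modularFunctionFieldFullC κ N) ≤ genusFF L (modularFunctionFieldFullC L N) := by
  have h := (redData A π hπ N hL hN).genus_le
    (TorsInj.rrLarge_genusFF (K := L) (F := modularFunctionFieldFullC L N))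
    (TorsInj.rrLarge_genusFF (K := κ) (F := modularFunctionFieldFullC κ N))
  exact_mod_cast h

include ι in
theorem natCast_ne_zero_of_emb (N : ℕ) [hN : NeZero N] : (N : L) ≠ 0 := by
  intro h
  have := congrArg ι h
  rw [map_natCast, map_zero] at this
  exact hN.out (by exact_mod_cast this)

include ι hπ in
/-- the genera agree at levels divisible by `p²`, `p = 2, 3`. -/
theorem genusFF_eq_pp {p : ℕ} [hp : Fact p.Prime] (h23 : p ≤ 3) {M : ℕ} [NeZero M]
    (hM : (M : κ) ≠ 0) (hpM : p * p ∣ M) :
    genusFF κ (modularFunctionFieldFullC κ M) = genusFF L (modularFunctionFieldFullC L M) := by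
  have hML := natCast_ne_zero_of_emb (L := L) ι M
  have hppκ : ((p * p : ℕ) : κ) ≠ 0 := by
    intro h0
    obtain ⟨k, rfl⟩ := hpM
    rw [Nat.cast_mul, h0, zero_mul] at hM
    exact hM rfl
  have hppL := natCast_ne_zero_of_emb (L := L) ι (p * p)
  apply le_antisymm (genusFF_le A π hπ M hML hM)
  have hg0 : genusFF L (modularFunctionFieldFullC L (p * p)) = 0 := by
    have h2 := hp.out.two_le
    interval_cases p
    · exact genusFF_four L ι
    · exact genusFF_nine L ι
  have hg : genusFF κ (modularFunctionFieldFullC κ (p * p)) = 0 := by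
    have := genusFF_le A π hπ (p * p) hppL hppκ
    rw [hg0] at this
    omega
  have h1 := genus_ge_pp κ h23 hM hpM hg
  have h2 := genus_ineq L ι M
  have h3 : Nat.card {P : Place κ (modularFunctionFieldFullC κ M) //
      P.ord (HeckeRed.jF κ M) < 0} ≤ cuspCount M :=
    card_cusps_le ι A π M hπ (psi_pos M) (relfinrank_full_of_isAlgClosed M hML)
      (relfinrank_full_of_isAlgClosed M hM) hM (Fermat.Agent.Gamma0Comb.card_X M).symm
  have h4 : ((Nat.card {P : Place κ (modularFunctionFieldFullC κ M) //
      P.ord (HeckeRed.jF κ M) < 0} : ℕ) : ℤ) ≤ cuspCount M := by exact_mod_cast h3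
  have h5 : (genusFF L (modularFunctionFieldFullC L M) : ℤ) ≤
      genusFF κ (modularFunctionFieldFullC κ M) := by linarith
  exact_mod_cast h5

/-- compatibility of the reduction data in a tower of levels -/
theorem redData_tower {N M : ℕ} [NeZero N] [NeZero M] (h : N ∣ M) (hLN : (N : L) ≠ 0)
    (hN : (N : κ) ≠ 0) (hLM : (M : L) ≠ 0) (hM : (M : κ) ≠ 0) :
    letI := levelAlg L h
    letI := levelAlg κ h
    Deuring.Tower (redData A π hπ N hLN hN) (redData A π hπ M hLM hM) := by
  letI := levelAlg L h
  letI := levelAlg κ h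
  have hmem : ∀ f : modularFunctionFieldFullC L N,
      algebraMap (modularFunctionFieldFullC L N) (modularFunctionFieldFullC L M) f ∈
        (redData A π hπ M hLM hM).O ↔ f ∈ (redData A π hπ N hLN hN).O := by
    intro f
    show algebraMap (modularFunctionFieldFullC L N) (modularFunctionFieldFullC L M) f ∈
        gaussVal A π (isTameField_full M) ↔ f ∈ gaussVal A π (isTameField_full N)
    rw [mem_gaussVal_iff, mem_gaussVal_iff, algebraMap_level, coe_levelMap]
  refine ⟨hmem, fun f => ?_⟩
  apply Subtype.ext
  rw [algebraMap_level (K := κ), coe_levelMap]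
  have h1 : (((algebraMap (modularFunctionFieldFullC L N) (modularFunctionFieldFullC L M)
      (f : modularFunctionFieldFullC L N) : modularFunctionFieldFullC L M)) : LaurentSeries L) =
      ((f : modularFunctionFieldFullC L N) : LaurentSeries L) := by
    rw [algebraMap_level, coe_levelMap]
  exact gaussRes_congr (A := A) (π := π)
    (x := ⟨_, (mem_gaussVal_iff A π (isTameField_full M)).mp ((hmem _).mpr f.2)⟩)
    (y := ⟨_, (mem_gaussVal_iff A π (isTameField_full N)).mp f.2⟩) h1

include ι hπ in
/-- **Equality of genera**: the function field of `X₀(N)` in characteristic `ℓ ∤ N` has the same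
genus as in characteristic `0`. -/
theorem genusFF_eq (N : ℕ) [NeZero N] (hN : (N : κ) ≠ 0) :
    genusFF κ (modularFunctionFieldFullC κ N) = genusFF L (modularFunctionFieldFullC L N) := by
  -- choose `p`
  obtain ⟨p, hp, h23, hpκ⟩ : ∃ p : ℕ, p.Prime ∧ p ≤ 3 ∧ (p : κ) ≠ 0 := by
    by_cases h2 : ((2 : ℕ) : κ) = 0
    · refine ⟨3, Nat.prime_three, le_rfl, ?_⟩
      intro h3
      have : (1 : κ) = ((3 : ℕ) : κ) - ((2 : ℕ) : κ) := by push_cast; ring
      rw [h3, h2, sub_zero] at this
      exact one_ne_zero this
    · exact ⟨2, Nat.prime_two, by norm_num, h2⟩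
  have : Fact p.Prime := ⟨hp⟩
  have hM0 : p * p * N ≠ 0 := mul_ne_zero (mul_ne_zero hp.ne_zero hp.ne_zero) (NeZero.ne N)
  have : NeZero (p * p * N) := ⟨hM0⟩
  have hMκ : ((p * p * N : ℕ) : κ) ≠ 0 := by
    rw [Nat.cast_mul, Nat.cast_mul]
    exact mul_ne_zero (mul_ne_zero hpκ hpκ) hN
  have hNM : N ∣ p * p * N := Dvd.intro_left _ rfl
  have hML := natCast_ne_zero_of_emb (L := L) ι (p * p * N)
  have hNL := natCast_ne_zero_of_emb (L := L) ι N
  have hgM := genusFF_eq_pp ι A π hπ h23 hMκ (Dvd.intro N rfl)
  letI := levelAlg L hNM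
  letI := levelAlg κ hNM
  have := levelAlg_tower L hNM
  have := levelAlg_tower κ hNM
  have hT := redData_tower A π hπ hNM hNL hN hML hMκ
  have hnL := levelAlg_finrank L hNM
  have hnκ := levelAlg_finrank κ hNM
  have hmL := relfinrank_level_mul L hNM hML
  have hmκ := relfinrank_level_mul κ hNM hMκ
  have hd : finrank (modularFunctionFieldFullC L N) (modularFunctionFieldFullC L (p * p * N)) =
      finrank (modularFunctionFieldFullC κ N) (modularFunctionFieldFullC κ (p * p * N)) := by
    rw [hnL, hnκ]
    exact Nat.eq_of_mul_eq_mul_right (psi_pos N) (hmL.trans hmκ.symm)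
  have hposL : 0 < finrank (modularFunctionFieldFullC L N)
      (modularFunctionFieldFullC L (p * p * N)) := by
    rw [hnL]
    rcases Nat.eq_zero_or_pos (relfinrank (modularFunctionFieldFullC L N)
      (modularFunctionFieldFullC L (p * p * N))) with h0 | h0
    · rw [h0, zero_mul] at hmL
      exact absurd hmL.symm (psi_pos (p * p * N)).ne'
    · exact h0
  have : FiniteDimensional (modularFunctionFieldFullC L N)
    (modularFunctionFieldFullC L (p * p * N)) := FiniteDimensional.of_finrank_pos hposL
  have : FiniteDimensional (modularFunctionFieldFullC κ N)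
    (modularFunctionFieldFullC κ (p * p * N)) := FiniteDimensional.of_finrank_pos (hd ▸ hposL)
  have hRRM₁ := TorsInj.rrLarge_genusFF (K := κ) (F := modularFunctionFieldFullC κ (p * p * N))
  rw [hgM] at hRRM₁
  have key := hT.genus_eq
    (PushPull.pushforwardNormFormula L (modularFunctionFieldFullC L N)
      (modularFunctionFieldFullC L (p * p * N)))
    (PushPull.pushforwardNormFormula κ (modularFunctionFieldFullC κ N)
      (modularFunctionFieldFullC κ (p * p * N))) hd
    (TorsInj.rrLarge_genusFF (K := L) (F := modularFunctionFieldFullC L (p * p * N))) hRRM₁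
    (TorsInj.rrLarge_genusFF (K := L) (F := modularFunctionFieldFullC L N))
    (TorsInj.rrLarge_genusFF (K := κ) (F := modularFunctionFieldFullC κ N))
  exact_mod_cast key.symm

end Main

end Fermat.Agent.Cusps
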