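import Fermat.Agent.Cusps.GenusEq
import Fermat.Agent.Frob.QbarInst

/-!
# Equality of genera over `ℚ̄`
-/

set_option autoImplicit false

noncomputable section

open ModularCurve AlgebraicCurve

namespace Fermat.Agent.Cusps

/-- **Equality of genera** for valuation rings of `ℚ̄`. -/
theorem genusFF_eq_Qb (A : ValuationSubring (AlgebraicClosure ℚ)) {κ : Type*} [Field κ]
    [IsAlgClosed κ] (π : A →+* κ) [IsLocalHom π] (hπ : Function.Surjective π) (N : ℕ) [NeZero N]
    (hN : (N : κ) ≠ 0) :
    genusFF κ (modularFunctionFieldFullC κ N) =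
      genusFF (AlgebraicClosure ℚ) (modularFunctionFieldFullC (AlgebraicClosure ℚ) N) :=
  genusFF_eq (IsAlgClosed.lift (R := ℚ) (S := AlgebraicClosure ℚ) (M := ℂ)).toRingHom A π hπ N hN

/-- for the residue field -/
theorem genusFF_residue (A : ValuationSubring (AlgebraicClosure ℚ))
    [IsAlgClosed (IsLocalRing.ResidueField A)] (N : ℕ) [NeZero N]
    (hN : (N : IsLocalRing.ResidueField A) ≠ 0) :
    genusFF (IsLocalRing.ResidueField A)
        (modularFunctionFieldFullC (IsLocalRing.ResidueField A) N) =
      genusFF (AlgebraicClosure ℚ) (modularFunctionFieldFullC (AlgebraicClosure ℚ) N) :=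
  genusFF_eq_Qb A (IsLocalRing.residue A) IsLocalRing.residue_surjective N hN

end Fermat.Agent.Cusps
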